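import Fermat.Agent.S22.LatticeFG

/-!
# S22 helper: the period lattice is stable under the Hecke operators
-/

set_option autoImplicit false

open UpperHalfPlane hiding I
open Function Complex Filter Topology
open CongruenceSubgroup Matrix.SpecialLinearGroup
open scoped Real Manifold MatrixGroups ModularForm
open P2MW.S_ModularForm_heckeT_slash_eq_self_of_mem_Gamma0.ModularForm.HeckeSlashInvariance
open ModularForm

namespace Fermat.Agent.S22

variable {N : ℕ} [NeZero N] {k : ℤ} {w : ℕ}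

theorem val_det_pos_of_det_pos {g : GL (Fin 2) ℝ} (h : 0 < (g.det : ℝ)) : 0 < g.val.det := by
  rwa [Matrix.GeneralLinearGroup.val_det_apply] at h

theorem heckeMatrix_tri {p : ℕ} (hp : p ≠ 0) (j : ℕ) : heckeMatrix p j 1 0 = 0 := by
  have := val_heckeMatrix hp j
  show (heckeMatrix p j).val 1 0 = 0
  rw [this]; simp

theorem heckeDiagMatrix_tri {p : ℕ} (hp : p ≠ 0) : heckeDiagMatrix p 1 0 = 0 := by
  have := val_heckeDiagMatrix hp
  show (heckeDiagMatrix p).val 1 0 = 0
  rw [this]; simp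

theorem heckeMatrix_act_int {p : ℕ} (hp : p ≠ 0) (j : ℕ) (x y : ℤ) :
    actX (heckeMatrix p j) x y = ((x + j * y : ℤ) : ℂ) ∧
      actY (heckeMatrix p j) x y = ((p * y : ℤ) : ℂ) := by
  have h := val_heckeMatrix hp j
  have h00 : heckeMatrix p j 0 0 = 1 := by
    show (heckeMatrix p j).val 0 0 = 1
    rw [h]; simp
  have h01 : heckeMatrix p j 0 1 = j := by
    show (heckeMatrix p j).val 0 1 = j
    rw [h]; simp
  have h10 : heckeMatrix p j 1 0 = 0 := heckeMatrix_tri hp j
  have h11 : heckeMatrix p j 1 1 = p := by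
    show (heckeMatrix p j).val 1 1 = p
    rw [h]; simp
  constructor
  · simp [actX, h00, h01]
  · simp [actY, h10, h11]

theorem heckeDiagMatrix_act_int {p : ℕ} (hp : p ≠ 0) (x y : ℤ) :
    actX (heckeDiagMatrix p) x y = ((p * x : ℤ) : ℂ) ∧
      actY (heckeDiagMatrix p) x y = ((y : ℤ) : ℂ) := by
  have h := val_heckeDiagMatrix hp
  have h00 : heckeDiagMatrix p 0 0 = p := by
    show (heckeDiagMatrix p).val 0 0 = p
    rw [h]; simp
  have h01 : heckeDiagMatrix p 0 1 = 0 := by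
    show (heckeDiagMatrix p).val 0 1 = 0
    rw [h]; simp
  have h10 : heckeDiagMatrix p 1 0 = 0 := heckeDiagMatrix_tri hp
  have h11 : heckeDiagMatrix p 1 1 = 1 := by
    show (heckeDiagMatrix p).val 1 1 = 1
    rw [h]; simp
  constructor
  · simp [actX, h00, h01]
  · simp [actY, h10, h11]

theorem heckeRep_tri {p : ℕ} (hp : p ≠ 0) (i : OnePoint (ZMod p)) : heckeRep p i 1 0 = 0 := by
  induction i using OnePoint.rec with
  | infty => exact heckeDiagMatrix_tri hp
  | coe j => exact heckeMatrix_tri hp _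

theorem heckeRep_det_pos (p : ℕ) (i : OnePoint (ZMod p)) : 0 < (heckeRep p i).val.det := by
  induction i using OnePoint.rec with
  | infty => exact val_det_pos_of_det_pos (det_heckeDiagMatrix_pos p)
  | coe j => exact val_det_pos_of_det_pos (det_heckeMatrix_pos p _)

theorem heckeRep_act_int {p : ℕ} (hp : p ≠ 0) (i : OnePoint (ZMod p)) (x y : ℤ) :
    ∃ X Y : ℤ, actX (heckeRep p i) x y = X ∧ actY (heckeRep p i) x y = Y := by
  induction i using OnePoint.rec with
  | infty => exact ⟨_, _, heckeDiagMatrix_act_int hp x y⟩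
  | coe j => exact ⟨_, _, heckeMatrix_act_int hp _ x y⟩

theorem perFun_comp_heckeT_mem (hk : k = w + 2) {p : ℕ} (hp : p.Prime) (hpN : ¬ p ∣ N)
    {γ : SL(2, ℤ)} (hγ : γ ∈ Gamma0 N) (x y : ℤ) :
    (perFun N k w γ x y) ∘ₗ (CuspForm.heckeTLin k hp hpN) ∈ periodLattice N k w := by
  have : Fact p.Prime := ⟨hp⟩
  have : NeZero p := ⟨hp.ne_zero⟩
  have hcN : (N : ℤ) ∣ γ 1 0 :=
    (ZMod.intCast_zmod_eq_zero_iff_dvd _ _).mp (Gamma0_mem.mp hγ)
  choose g' hg'N hg'mul using heckeRep_mul hpN γ hcN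
  have hg'mem : ∀ i, g' i ∈ Gamma0 N := fun i =>
    Gamma0_mem.mpr ((ZMod.intCast_zmod_eq_zero_iff_dvd _ _).mpr (hg'N i))
  choose X Y hX hY using fun i => heckeRep_act_int hp.ne_zero i x y
  have hmain : (perFun N k w γ x y) ∘ₗ (CuspForm.heckeTLin k hp hpN)
      = ∑ i, perFun N k w (g' i) (X (redMatrix p γ • i)) (Y (redMatrix p γ • i)) := by
    ext f
    simp only [LinearMap.comp_apply, perFun_apply, LinearMap.sum_apply]
    rw [CuspForm.coe_heckeTLin_apply, heckeT_eq_sum_onePoint]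
    rw [per_sum_slash hk (cuspForm_hasTower f) (heckeRep p) (heckeRep_tri hp.ne_zero)
      (heckeRep_det_pos p) (MulAction.toPerm (redMatrix p γ)) (mapGL ℝ γ)
      (fun i => mapGL ℝ (g' i)) hg'mul (fun i => det_mapGL_pos _)
      (fun i => cuspForm_slash_eq f (hg'mem i))]
    refine Finset.sum_congr rfl fun i _ => ?_
    simp only [MulAction.toPerm_apply]
    rw [hX, hY]
  rw [hmain]
  exact Submodule.sum_mem _ fun i _ => perFun_mem_periodLattice (hg'mem i) _ _

theorem perFun_comp_heckeU_mem (hk : k = w + 2) {p : ℕ} (hp : p.Prime) (hpN : p ∣ N)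
    {γ : SL(2, ℤ)} (hγ : γ ∈ Gamma0 N) (x y : ℤ) :
    (perFun N k w γ x y) ∘ₗ (CuspForm.heckeULin k hpN) ∈ periodLattice N k w := by
  have : NeZero p := ⟨hp.ne_zero⟩
  have hcN : (N : ℤ) ∣ γ 1 0 :=
    (ZMod.intCast_zmod_eq_zero_iff_dvd _ _).mp (Gamma0_mem.mp hγ)
  have hc : (p : ℤ) ∣ γ 1 0 := (Int.natCast_dvd_natCast.mpr hpN).trans hcN
  have hc0 : ((γ 1 0 : ℤ) : ZMod p) = 0 := (ZMod.intCast_zmod_eq_zero_iff_dvd _ _).mpr hc
  choose g' hg'N hg'mul using heckeMatrix_mul_of_dvd γ hc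
  have hg'mem : ∀ i, g' i ∈ Gamma0 N := fun i => by
    rw [Gamma0_mem, hg'N i]
    push_cast
    rw [Gamma0_mem.mp hγ, mul_zero]
  have hmain : (perFun N k w γ x y) ∘ₗ (CuspForm.heckeULin k hpN)
      = ∑ i : ZMod p, perFun N k w (g' i) (x + ((affinePerm γ hc0 i).val : ℤ) * y) (p * y) := by
    ext f
    simp only [LinearMap.comp_apply, perFun_apply, LinearMap.sum_apply]
    rw [CuspForm.coe_heckeULin_apply, heckeU_eq_sum_zmod]
    rw [per_sum_slash hk (cuspForm_hasTower f) (fun i : ZMod p => heckeMatrix p i.val)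
      (fun i => heckeMatrix_tri hp.ne_zero _)
      (fun i => val_det_pos_of_det_pos (det_heckeMatrix_pos p _)) (affinePerm γ hc0) (mapGL ℝ γ)
      (fun i => mapGL ℝ (g' i)) hg'mul (fun i => det_mapGL_pos _)
      (fun i => cuspForm_slash_eq f (hg'mem i))]
    refine Finset.sum_congr rfl fun i _ => ?_
    rw [(heckeMatrix_act_int hp.ne_zero _ x y).1, (heckeMatrix_act_int hp.ne_zero _ x y).2]
  rw [hmain]
  exact Submodule.sum_mem _ fun i _ => perFun_mem_periodLattice (hg'mem i) _ _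

end Fermat.Agent.S22
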