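import Mathlib

/-!
# S22 helper: a `ℤ`-algebra of endomorphisms stabilising a finitely generated separating
lattice of functionals is a finite `ℤ`-module
-/

set_option autoImplicit false

namespace Fermat.Agent.S22

/-- Every element of the adjoined algebra stabilises the lattice. -/
theorem adjoin_stab_lattice {V : Type*} [AddCommGroup V] [Module ℂ V]
    (gens : Set (Module.End ℂ V)) (L : Submodule ℤ (Module.Dual ℂ V))
    (hstab : ∀ T ∈ gens, ∀ φ ∈ L, φ ∘ₗ T ∈ L) :
    ∀ t ∈ Algebra.adjoin ℤ gens, ∀ φ ∈ L, φ ∘ₗ t ∈ L := by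
  intro t ht
  induction ht using Algebra.adjoin_induction with
  | mem x hx => exact hstab x hx
  | algebraMap r =>
    intro φ hφ
    have : φ ∘ₗ (algebraMap ℤ (Module.End ℂ V) r) = r • φ := by
      ext v
      simp
    rw [this]
    exact L.smul_mem r hφ
  | add x y _ _ hx hy =>
    intro φ hφ
    rw [LinearMap.comp_add]
    exact L.add_mem (hx φ hφ) (hy φ hφ)
  | mul x y _ _ hx hy =>
    intro φ hφ
    have : φ ∘ₗ (x * y) = (φ ∘ₗ x) ∘ₗ y := rfl
    rw [this]
    exact hy _ (hx φ hφ)

theorem moduleFinite_adjoin_of_lattice {V : Type*} [AddCommGroup V] [Module ℂ V]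
    (gens : Set (Module.End ℂ V)) (L : Submodule ℤ (Module.Dual ℂ V)) (hL : L.FG)
    (hsep : ∀ v : V, (∀ φ ∈ L, φ v = 0) → v = 0)
    (hstab : ∀ T ∈ gens, ∀ φ ∈ L, φ ∘ₗ T ∈ L) :
    Module.Finite ℤ (Algebra.adjoin ℤ gens) := by
  classical
  have hstab' := adjoin_stab_lattice gens L hstab
  obtain ⟨s, hs⟩ := hL
  have : Module.Finite ℤ L := Module.Finite.iff_fg.mpr ⟨s, hs⟩
  have : IsNoetherian ℤ L := inferInstance
  -- the evaluation map `t ↦ (l ∘ t)_{l ∈ s}`
  have hsL : ∀ l : {l // l ∈ s}, (l : Module.Dual ℂ V) ∈ L := by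
    rintro ⟨l, hl⟩
    rw [← hs]
    exact Submodule.subset_span hl
  let Φ : (Algebra.adjoin ℤ gens) →ₗ[ℤ] ({l // l ∈ s} → L) :=
    { toFun := fun t l => ⟨(l : Module.Dual ℂ V) ∘ₗ (t : Module.End ℂ V), hstab' t t.2 l (hsL l)⟩
      map_add' := by
        intro t t'
        funext l
        apply Subtype.ext
        simp [LinearMap.comp_add]
      map_smul' := by
        intro n t
        funext l
        apply Subtype.ext
        ext v
        simp }
  have hΦ : Function.Injective Φ := by
    rw [← LinearMap.ker_eq_bot, LinearMap.ker_eq_bot']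
    intro t ht
    apply Subtype.ext
    show (t : Module.End ℂ V) = 0
    have h1 : ∀ l ∈ s, (l : Module.Dual ℂ V) ∘ₗ (t : Module.End ℂ V) = 0 := by
      intro l hl
      have := congrFun ht ⟨l, hl⟩
      exact congrArg Subtype.val this
    have h2 : ∀ φ ∈ L, φ ∘ₗ (t : Module.End ℂ V) = 0 := by
      intro φ hφ
      rw [← hs] at hφ
      induction hφ using Submodule.span_induction with
      | mem x hx => exact h1 x hx
      | zero => simp
      | add x y _ _ hx hy => rw [LinearMap.add_comp, hx, hy, add_zero]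
      | smul a x _ hx =>
        ext v
        have := congrArg (fun f : Module.Dual ℂ V => f v) hx
        simp only [LinearMap.comp_apply, LinearMap.zero_apply] at this
        simp [this]
    ext v
    apply hsep
    intro φ hφ
    have := congrArg (fun f : Module.Dual ℂ V => f v) (h2 φ hφ)
    simpa using this
  exact Module.Finite.of_injective Φ hΦ

end Fermat.Agent.S22
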