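import Mathlib

/-!
# S22 helper: primitives of cusp-like functions on the upper half plane
-/

set_option autoImplicit false

open UpperHalfPlane hiding I
open Function Complex Filter Topology
open scoped Real Manifold

namespace Fermat.Agent.S22

/-- Cusp-like functions: holomorphic on `ℍ`, `h`-periodic, zero at `i∞`. -/
structure IsCuspLike (h : ℝ) (f : ℍ → ℂ) : Prop where
  hol : MDiff f
  per : Periodic (f ∘ ofComplex) h
  zero : IsZeroAtImInfty f

/-- `F' = f` on the upper half plane. -/
def HasDerivH (F f : ℍ → ℂ) : Prop :=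
  ∀ τ : ℍ, HasDerivAt (F ∘ ofComplex) (f τ) (τ : ℂ)

theorem HasDerivH.mdiff {F f : ℍ → ℂ} (h : HasDerivH F f) : MDiff F := by
  rw [UpperHalfPlane.mdifferentiable_iff]
  intro z hz
  have := h ⟨z, hz⟩
  exact this.differentiableAt.differentiableWithinAt

theorem hasDerivAt_qParam (h : ℝ) (z : ℂ) :
    HasDerivAt (Periodic.qParam h) (Periodic.qParam h z * (2 * π * I / h)) z := by
  unfold Periodic.qParam
  have h1 : HasDerivAt (fun z : ℂ => 2 * π * I * z / h) (2 * π * I / h) z := by
    have := ((hasDerivAt_id z).const_mul (2 * π * I)).div_const (h : ℂ)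
    simpa using this
  exact h1.cexp

theorem qParam_add_period {h : ℝ} (hh : h ≠ 0) (z : ℂ) :
    Periodic.qParam h (z + h) = Periodic.qParam h z := by
  unfold Periodic.qParam
  have hh' : (h : ℂ) ≠ 0 := by exact_mod_cast hh
  have : 2 * π * I * (z + h) / h = 2 * π * I * z / h + 2 * π * I := by
    field_simp
  rw [this, Complex.exp_add, Complex.exp_two_pi_mul_I, mul_one]

theorem exists_prim {h : ℝ} (hh : 0 < h) {f : ℍ → ℂ} (hf : IsCuspLike h f) :
    ∃ F : ℍ → ℂ, IsCuspLike h F ∧ HasDerivH F f := by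
  have hFd : DifferentiableOn ℂ (cuspFunction h f) (Metric.ball 0 1) :=
    differentiableOn_cuspFunction_ball hh hf.per hf.hol hf.zero.isBoundedAtImInfty
  have hF0 : cuspFunction h f 0 = 0 := hf.zero.cuspFunction_apply_zero hh
  have hG : DifferentiableOn ℂ (dslope (cuspFunction h f) 0) (Metric.ball 0 1) :=
    (Complex.differentiableOn_dslope (Metric.ball_mem_nhds 0 one_pos)).mpr hFd
  obtain ⟨H, hH0, hH⟩ := (hG.isExactOn_ball).with_val_at 0 0
  have hpi : (2 * π * I : ℂ) ≠ 0 := Complex.two_pi_I_ne_zero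
  have hh' : (h : ℂ) ≠ 0 := by exact_mod_cast hh.ne'
  have hder : HasDerivH (fun τ : ℍ => (h / (2 * π * I)) * H (Periodic.qParam h τ)) f := by
    intro τ
    have hq : Periodic.qParam h τ ∈ Metric.ball (0 : ℂ) 1 := by
      simpa using Periodic.norm_qParam_lt_one hh τ.im_pos
    have hq0 : Periodic.qParam h (τ : ℂ) ≠ 0 := Periodic.qParam_ne_zero _
    have h1 := (hH _ hq).comp (τ : ℂ) (hasDerivAt_qParam h τ)
    have h2 := h1.const_mul (h / (2 * π * I) : ℂ)
    have hval : (h / (2 * π * I) : ℂ) * (dslope (cuspFunction h f) 0 (Periodic.qParam h τ) *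
        (Periodic.qParam h τ * (2 * π * I / h))) = f τ := by
      rw [dslope_of_ne _ hq0, slope_def_field, hF0, sub_zero, sub_zero,
        eq_cuspFunction τ hh.ne' hf.per]
      field_simp
    rw [hval] at h2
    refine h2.congr_of_eventuallyEq ?_
    filter_upwards [isOpen_upperHalfPlaneSet.mem_nhds τ.im_pos] with z hz
    simp [Function.comp, ofComplex_apply_of_im_pos hz]
  refine ⟨_, ⟨hder.mdiff, ?_, ?_⟩, hder⟩
  · intro w
    by_cases hw : 0 < im w
    · have hw' : 0 < im (w + h) := by simpa using hw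
      simp only [comp_apply, ofComplex_apply_of_im_pos hw', ofComplex_apply_of_im_pos hw]
      show _ * H (Periodic.qParam h (w + h)) = _ * H (Periodic.qParam h w)
      rw [qParam_add_period hh.ne']
    · have hw0 : im w ≤ 0 := not_lt.mp hw
      have hw' : im (w + h) ≤ 0 := by simpa using hw0
      simp only [comp_apply, ofComplex_apply_eq_of_im_nonpos hw' hw0]
  · have hcont : ContinuousAt H 0 :=
      (hH 0 (Metric.mem_ball_self one_pos)).continuousAt
    have h1 : Tendsto (fun τ : ℍ => H (Periodic.qParam h τ)) atImInfty (𝓝 (H 0)) :=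
      hcont.tendsto.comp (qParam_tendsto_atImInfty hh)
    have h2 := h1.const_mul (h / (2 * π * I) : ℂ)
    rw [hH0, mul_zero] at h2
    exact h2

end Fermat.Agent.S22
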