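import Mathlib
import Fermat.Agent.S22.Prim
import Fermat.Prelude.Thm_Subgroup_IsArithmetic_exists_nat_mem_strictPeriods_conj

/-!
# S22 helper: translates of cusp forms on `Γ₀(N)` are cusp-like
-/

set_option autoImplicit false

open UpperHalfPlane hiding I
open Function Complex Filter Topology
open scoped Real Manifold MatrixGroups ModularForm Pointwise

namespace Fermat.Agent.S22

/-- A cusp form on `Γ₀(N)` is cusp-like of period `1`. -/
theorem isCuspLike_one {N : ℕ} [NeZero N] {k : ℤ} (f : CuspForm (CongruenceSubgroup.Gamma0 N) k) :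
    IsCuspLike 1 ⇑f := by
  have h1 : (1 : ℝ) ∈ (CongruenceSubgroup.Gamma0 N : Subgroup (GL (Fin 2) ℝ)).strictPeriods := by
    simp [CongruenceSubgroup.strictPeriods_Gamma0]
  refine ⟨CuspFormClass.holo f, ?_, CuspFormClass.zero_at_infty f⟩
  have := SlashInvariantFormClass.periodic_comp_ofComplex f h1
  simpa using this

/-- There is a common period `M` such that every `SL(2, ℤ)`-translate of a cusp form on `Γ₀(N)`
is cusp-like of period `M`. -/
theorem exists_period_isCuspLike (N : ℕ) [NeZero N] (k : ℤ)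
    (f : CuspForm (CongruenceSubgroup.Gamma0 N) k) :
    ∃ M : ℕ, 0 < M ∧ ∀ γ : SL(2, ℤ),
      IsCuspLike (M : ℝ) (⇑f ∣[k] (Matrix.SpecialLinearGroup.mapGL ℝ γ)) := by
  obtain ⟨M, hM, hper⟩ := Subgroup.IsArithmetic.exists_nat_mem_strictPeriods_conj
    (CongruenceSubgroup.Gamma0 N : Subgroup (GL (Fin 2) ℝ))
  refine ⟨M, hM, fun γ => ?_⟩
  set g : GL (Fin 2) ℝ := Matrix.SpecialLinearGroup.mapGL ℝ γ with hg
  have hginv : g⁻¹ = Matrix.SpecialLinearGroup.mapGL ℝ γ⁻¹ := by
    rw [hg, map_inv]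
  have hΓ : (M : ℝ) ∈ (ConjAct.toConjAct g⁻¹ •
      (CongruenceSubgroup.Gamma0 N : Subgroup (GL (Fin 2) ℝ))).strictPeriods := by
    rw [hginv]
    exact hper γ⁻¹
  refine ⟨(CuspFormClass.holo (CuspForm.translate f g)), ?_, CuspFormClass.zero_at_infty_slash f γ⟩
  exact SlashInvariantFormClass.periodic_comp_ofComplex (CuspForm.translate f g) hΓ

end Fermat.Agent.S22
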