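import Mathlib
import Fermat.Prelude.Def_CuspForm_HeckeAlgebra

/-!
# S22 helper: cusp forms of weight `≤ 1` on `Γ₀(N)` vanish
-/

set_option autoImplicit false

open UpperHalfPlane hiding I
open Function Complex Filter Topology
open scoped Real Manifold MatrixGroups

namespace Fermat.Agent.S22

theorem neg_one_mem_Gamma0 (N : ℕ) :
    (-1 : GL (Fin 2) ℝ) ∈ (CongruenceSubgroup.Gamma0 N : Subgroup (GL (Fin 2) ℝ)) := by
  refine ⟨-1, ?_, ?_⟩
  · rw [SetLike.mem_coe, CongruenceSubgroup.Gamma0_mem]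
    simp
  · ext i j
    fin_cases i <;> fin_cases j <;> simp [Matrix.SpecialLinearGroup.mapGL]

/-- Cusp forms of weight `k ≤ 1` on `Γ₀(N)` are zero. -/
theorem cuspForm_eq_zero_of_weight_le_one (N : ℕ) [NeZero N] (k : ℤ) (hk : k ≤ 1)
    (f : CuspForm (CongruenceSubgroup.Gamma0 N) k) : f = 0 := by
  apply CuspForm.toModularFormₗ_injective
  rw [map_zero]
  rcases lt_trichotomy k 0 with hneg | h0 | hpos
  · exact ModularForm.isZero_of_neg_weight hneg _
  · subst h0
    obtain ⟨c, hc⟩ := ModularForm.eq_const_of_weight_zero (CuspForm.toModularFormₗ f)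
    have hzero : IsZeroAtImInfty (f : ℍ → ℂ) := CuspFormClass.zero_at_infty f
    have hfc : (f : ℍ → ℂ) = Function.const ℍ c := hc
    have hc0 : c = 0 := by
      have h1 : Tendsto (f : ℍ → ℂ) atImInfty (𝓝 0) := hzero
      rw [hfc] at h1
      have h2 : Tendsto (Function.const ℍ c) atImInfty (𝓝 c) := tendsto_const_nhds
      exact tendsto_nhds_unique h2 h1
    ext z
    have := congrFun hc z
    rw [hc0] at this
    simpa using this
  · have hk1 : k = 1 := le_antisymm hk hpos
    subst hk1
    exact ModularForm.eq_zero_of_neg_one_mem (neg_one_mem_Gamma0 N) odd_one _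

/-- For weight `k ≤ 1` the Hecke algebra is trivially a finite `ℤ`-module. -/
theorem moduleFinite_of_weight_le_one (N : ℕ) [NeZero N] (k : ℤ) (hk : k ≤ 1) (S : Set ℕ) :
    Module.Finite ℤ (CuspForm.heckeAlgebra N k S) := by
  have hsub : Subsingleton (CuspForm (CongruenceSubgroup.Gamma0 N) k) :=
    ⟨fun f g => by
      rw [cuspForm_eq_zero_of_weight_le_one N k hk f, cuspForm_eq_zero_of_weight_le_one N k hk g]⟩
  have hsub2 : Subsingleton (Module.End ℂ (CuspForm (CongruenceSubgroup.Gamma0 N) k)) :=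
    ⟨fun T T' => LinearMap.ext fun f => Subsingleton.elim _ _⟩
  have hsub3 : Subsingleton (CuspForm.heckeAlgebra N k S) :=
    ⟨fun a b => Subtype.ext (Subsingleton.elim _ _)⟩
  infer_instance
end Fermat.Agent.S22
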