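import Fermat.Agent.S22.Separation
import Fermat.Agent.S22.HeckeStable
import Fermat.Agent.S22.Assembly
import Fermat.Agent.S22.LowWeight
import Fermat.Agent.S22.CuspLike
import Fermat.Agent.S22.Gamma0FG

/-!
# S22 helper: the Hecke algebra is a finitely generated `ℤ`-module (weight at least two)
-/

set_option autoImplicit false

open UpperHalfPlane hiding I
open CongruenceSubgroup Matrix.SpecialLinearGroup
open scoped MatrixGroups ModularForm

namespace Fermat.Agent.S22

theorem moduleFinite_heckeAlgebra_of_ge_two (N : ℕ) [NeZero N] (k : ℤ) (S : Set ℕ) (w : ℕ)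
    (hk : k = w + 2) : Module.Finite ℤ (CuspForm.heckeAlgebra N k S) := by
  unfold CuspForm.heckeAlgebra
  refine moduleFinite_adjoin_of_lattice (CuspForm.heckeGenerators N k S) (periodLattice N k w)
    (periodLattice_fg hk (gamma0_fg N)) ?_ ?_
  · intro f hf
    obtain ⟨M, hM, hcl⟩ := exists_period_isCuspLike N k f
    have h0 := eq_zero_of_periods_eq_zero N w k hk ⇑f (fun γ hγ => cuspForm_slash_eq f hγ) M hM hcl
      (by
        intro γ hγ x y
        have := hf _ (perFun_mem_periodLattice (w := w) hγ x y)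
        rw [perFun_apply, per] at this
        exact sub_eq_zero.mp this)
    exact DFunLike.coe_injective h0
  · intro T hT φ hφ
    induction hφ using Submodule.span_induction with
    | mem φ hφ =>
      obtain ⟨γ, hγ, x, y, rfl⟩ := hφ
      rcases hT with ⟨ℓ, hℓ, hℓN, -, rfl⟩ | ⟨q, hqN, hq, -, rfl⟩
      · exact perFun_comp_heckeT_mem hk hℓ hℓN hγ x y
      · exact perFun_comp_heckeU_mem hk hq hqN hγ x y
    | zero => simp
    | add φ ψ _ _ hφ hψ =>
      rw [LinearMap.add_comp]
      exact Submodule.add_mem _ hφ hψ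
    | smul c φ _ hφ =>
      have : (c • φ) ∘ₗ T = c • (φ ∘ₗ T) := by
        ext v; simp
      rw [this]
      exact Submodule.smul_mem _ _ hφ

theorem moduleFinite_heckeAlgebra (N : ℕ) [NeZero N] (k : ℤ) (S : Set ℕ) :
    Module.Finite ℤ (CuspForm.heckeAlgebra N k S) := by
  by_cases hk1 : k ≤ 1
  · exact moduleFinite_of_weight_le_one N k hk1 S
  · obtain ⟨w, hw⟩ : ∃ w : ℕ, k = w + 2 := ⟨(k - 2).toNat, by omega⟩
    exact moduleFinite_heckeAlgebra_of_ge_two N k S w hw

end Fermat.Agent.S22
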