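import Fermat.Agent.S22.JTri

/-!
# S22 helper: separation, part (S-inv)

If all period polynomials of `f` (along `Γ₀(N)`) vanish then the iterated primitive
`E f (w + 1)` is invariant of weight `-w` under `Γ₀(N)`.
Also provides polynomial lemmas (`sep_poly_const_of_periodic`, `sepD_poly`) for (S-bdd).
-/

set_option autoImplicit false

open UpperHalfPlane hiding I
open Function Complex Filter Topology Matrix Matrix.SpecialLinearGroup
open scoped Real Manifold MatrixGroups ModularForm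

namespace Fermat.Agent.S22

/-- `x ↦ J w f (a x + b) (c x + d) τ` is a polynomial function. -/
theorem sep_J_poly (w : ℕ) (f : ℍ → ℂ) (a b c d : ℂ) (τ : ℍ) :
    ∃ P : Polynomial ℂ, ∀ x : ℂ, P.eval x = J w f (a * x + b) (c * x + d) τ := by
  refine ⟨∑ n ∈ Finset.range (w + 1),
    Polynomial.C (w.descFactorial n : ℂ) * (Polynomial.C c * Polynomial.X + Polynomial.C d) ^ n *
      ((Polynomial.C a * Polynomial.X + Polynomial.C b) -
        (Polynomial.C c * Polynomial.X + Polynomial.C d) * Polynomial.C (τ : ℂ)) ^ (w - n) *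
      Polynomial.C (E f (n + 1) τ), fun x => ?_⟩
  simp [J, Polynomial.eval_finsetSum]

/-- A polynomial function vanishing at all integers vanishes identically. -/
theorem sep_poly_eq_zero_of_int (P : Polynomial ℂ) (h : ∀ n : ℤ, P.eval (n : ℂ) = 0) : P = 0 := by
  refine Polynomial.eq_zero_of_infinite_isRoot P ?_
  have hinj : Function.Injective (fun n : ℤ => (n : ℂ)) := Int.cast_injective
  refine Set.Infinite.mono ?_ (Set.infinite_range_of_injective hinj)
  rintro _ ⟨n, rfl⟩
  exact h n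

/-- A polynomial function which is `m`-periodic on the upper half plane (`m > 0`) is constant. -/
theorem sep_poly_const_of_periodic (P : Polynomial ℂ) (m : ℝ) (hm : 0 < m)
    (h : ∀ τ : ℍ, P.eval ((τ : ℂ) + m) = P.eval (τ : ℂ)) : ∀ x : ℂ, P.eval x = P.eval (I : ℂ) := by
  -- `Q = P(X + m) - P` vanishes on `ℍ`, hence is zero
  have hQ : P.comp (Polynomial.X + Polynomial.C (m : ℂ)) - P = 0 := by
    refine Polynomial.eq_zero_of_infinite_isRoot _ ?_
    have hinj : Function.Injective (fun n : ℕ => ((n : ℂ) + I)) := by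
      intro a b hab
      have := congrArg Complex.re hab
      simpa using this
    refine Set.Infinite.mono ?_ (Set.infinite_range_of_injective hinj)
    rintro _ ⟨n, rfl⟩
    have him : 0 < ((n : ℂ) + I).im := by simp
    have := h ⟨(n : ℂ) + I, him⟩
    simp only [Set.mem_ofPred_eq, Polynomial.IsRoot, Polynomial.eval_sub, Polynomial.eval_comp,
      Polynomial.eval_add, Polynomial.eval_X, Polynomial.eval_C]
    rw [sub_eq_zero]
    exact this
  have hper : ∀ x : ℂ, P.eval (x + m) = P.eval x := by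
    intro x
    have := congrArg (Polynomial.eval x) hQ
    simp only [Polynomial.eval_sub, Polynomial.eval_comp, Polynomial.eval_add, Polynomial.eval_X,
      Polynomial.eval_C, Polynomial.eval_zero] at this
    exact sub_eq_zero.mp this
  have hnat : ∀ n : ℕ, P.eval ((I : ℂ) + n * m) = P.eval (I : ℂ) := by
    intro n
    induction n with
    | zero => simp
    | succ n ih =>
      have := hper ((I : ℂ) + n * m)
      rw [ih] at this
      rw [← this]
      congr 1
      push_cast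
      ring
  have hR : P - Polynomial.C (P.eval (I : ℂ)) = 0 := by
    refine Polynomial.eq_zero_of_infinite_isRoot _ ?_
    have hinj : Function.Injective (fun n : ℕ => ((I : ℂ) + n * m)) := by
      intro a b hab
      have := congrArg Complex.re hab
      simp only [add_re, Complex.I_re, mul_re, natCast_re, ofReal_re, natCast_im, ofReal_im,
        mul_zero, sub_zero, zero_add] at this
      have hm' : m ≠ 0 := hm.ne'
      exact_mod_cast mul_right_cancel₀ hm' this
    refine Set.Infinite.mono ?_ (Set.infinite_range_of_injective hinj)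
    rintro _ ⟨n, rfl⟩
    simp only [Set.mem_ofPred_eq, Polynomial.IsRoot, Polynomial.eval_sub, Polynomial.eval_C]
    rw [sub_eq_zero]
    exact hnat n
  intro x
  have := congrArg (Polynomial.eval x) hR
  simp only [Polynomial.eval_sub, Polynomial.eval_C, Polynomial.eval_zero] at this
  exact sub_eq_zero.mp this


theorem sep_det_mapGL (γ : SL(2, ℤ)) : (mapGL ℝ γ).val.det = 1 := by
  have := Matrix.SpecialLinearGroup.det_mapGL (R := ℤ) (S := ℝ) γ
  have h2 : ((mapGL ℝ γ).det : ℝ) = 1 := by rw [this]; rfl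
  rwa [Matrix.GeneralLinearGroup.val_det_apply] at h2

theorem sep_det_pos (γ : SL(2, ℤ)) : 0 < (mapGL ℝ γ).val.det := by
  rw [sep_det_mapGL]; exact one_pos

theorem sep_actX_smul (g : GL (Fin 2) ℝ) (c x y : ℂ) :
    actX g (c * x) (c * y) = c * actX g x y := by
  simp only [actX]; ring

theorem sep_actY_smul (g : GL (Fin 2) ℝ) (c x y : ℂ) :
    actY g (c * x) (c * y) = c * actY g x y := by
  simp only [actY]; ring

/-- The period difference at base point `τ₀`. -/
noncomputable def sepD (w : ℕ) (f f' : ℍ → ℂ) (g : GL (Fin 2) ℝ) (τ₀ : ℍ) (x y : ℂ) : ℂ :=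
  J w f (actX g x y) (actY g x y) (g • τ₀) - J w f' x y τ₀

theorem sepD_homog (w : ℕ) (f f' : ℍ → ℂ) (g : GL (Fin 2) ℝ) (τ₀ : ℍ) (c x y : ℂ) :
    sepD w f f' g τ₀ (c * x) (c * y) = c ^ w * sepD w f f' g τ₀ x y := by
  simp only [sepD, sep_actX_smul, sep_actY_smul, J_homog]
  ring

/-- `x ↦ sepD … x 1` is a polynomial function. -/
theorem sepD_poly (w : ℕ) (f f' : ℍ → ℂ) (g : GL (Fin 2) ℝ) (τ₀ : ℍ) :
    ∃ P : Polynomial ℂ, ∀ x : ℂ, P.eval x = sepD w f f' g τ₀ x 1 := by
  obtain ⟨P₁, hP₁⟩ := sep_J_poly w f (g 0 0 : ℝ) (g 0 1 : ℝ) (g 1 0 : ℝ) (g 1 1 : ℝ) (g • τ₀)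
  obtain ⟨P₂, hP₂⟩ := sep_J_poly w f' 1 0 0 1 τ₀
  refine ⟨P₁ - P₂, fun x => ?_⟩
  rw [Polynomial.eval_sub, hP₁, hP₂]
  simp [sepD, actX, actY]

/-- If the period difference vanishes at all integer points, it vanishes identically. -/
theorem sepD_eq_zero_of_int (w : ℕ) (f f' : ℍ → ℂ) (g : GL (Fin 2) ℝ) (τ₀ : ℍ)
    (h : ∀ x y : ℤ, sepD w f f' g τ₀ x y = 0) (x y : ℂ) : sepD w f f' g τ₀ x y = 0 := by
  obtain ⟨P, hP⟩ := sepD_poly w f f' g τ₀
  have hP0 : P = 0 := sep_poly_eq_zero_of_int P fun n => by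
    rw [hP]; simpa using h n 1
  have h1 : ∀ x : ℂ, sepD w f f' g τ₀ x 1 = 0 := fun x => by rw [← hP, hP0, Polynomial.eval_zero]
  by_cases hy : y = 0
  · subst hy
    have := sepD_homog w f f' g τ₀ x 1 0
    rw [mul_one, mul_zero] at this
    rw [this]
    have h10 := h 1 0
    simp only [Int.cast_one, Int.cast_zero] at h10
    rw [h10, mul_zero]
  · have := sepD_homog w f f' g τ₀ y (x / y) 1
    rw [mul_one, mul_div_cancel₀ _ hy] at this
    rw [this, h1, mul_zero]


theorem sep_num_eq (g : GL (Fin 2) ℝ) (τ : ℍ) : actX g τ 1 = num g τ := by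
  simp [actX, num]

theorem sep_denom_eq (g : GL (Fin 2) ℝ) (τ : ℍ) : actY g τ 1 = denom g τ := by
  simp [actY, denom]

/-- Evaluating `J` at the moving point `v = g • (τ, 1)`. -/
theorem sep_J_act_diag (w : ℕ) (f : ℍ → ℂ) {g : GL (Fin 2) ℝ} (hg : 0 < g.val.det) (τ : ℍ) :
    J w f (actX g τ 1) (actY g τ 1) (g • τ)
      = denom g τ ^ w * ((w.factorial : ℂ) * E f (w + 1) (g • τ)) := by
  have hd : denom g τ ≠ 0 := denom_ne_zero g τ
  have h1 : actX g τ 1 = denom g τ * ((g • τ : ℍ) : ℂ) := by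
    rw [sep_num_eq, coe_smul_of_pos hg]
    field_simp
  have h2 : actY g τ 1 = denom g τ * 1 := by rw [sep_denom_eq, mul_one]
  rw [h1, h2, J_homog, J_diag]

theorem sep_slash_neg (w : ℕ) (Φ : ℍ → ℂ) {g : GL (Fin 2) ℝ} (hg : g.val.det = 1) (τ : ℍ) :
    (Φ ∣[-(w : ℤ)] g) τ = denom g τ ^ w * Φ (g • τ) := by
  rw [slash_apply_of_det_pos _ _ (by rw [hg]; exact one_pos), hg]
  simp only [Complex.ofReal_one, _root_.one_zpow, mul_one, neg_neg, zpow_natCast]
  ring

theorem E_slash_invariant (N : ℕ) [NeZero N] (w : ℕ) (k : ℤ) (hk : k = w + 2) (f : ℍ → ℂ)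
    (hT : HasTower f)
    (hinv : ∀ γ ∈ CongruenceSubgroup.Gamma0 N, f ∣[k] (mapGL ℝ γ) = f)
    (hper : ∀ γ ∈ CongruenceSubgroup.Gamma0 N, ∀ x y : ℤ,
      J w f (actX (mapGL ℝ γ) x y) (actY (mapGL ℝ γ) x y) ((mapGL ℝ γ) • UpperHalfPlane.I)
        = J w f x y UpperHalfPlane.I) :
    ∀ γ ∈ CongruenceSubgroup.Gamma0 N, (E f (w + 1)) ∣[-(w : ℤ)] (mapGL ℝ γ) = E f (w + 1) := by
  intro γ hγ
  have hg := sep_det_pos γ
  have hfg : f ∣[k] (mapGL ℝ γ) = f := hinv γ hγ
  -- vanishing of the period difference at `I` for all complex `(x, y)`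
  have hD : ∀ x y : ℂ, sepD w f f (mapGL ℝ γ) UpperHalfPlane.I x y = 0 :=
    sepD_eq_zero_of_int w f f (mapGL ℝ γ) UpperHalfPlane.I fun x y => by
      rw [sepD, sub_eq_zero]; exact hper γ hγ x y
  -- hence at every `τ`
  have hall : ∀ (τ : ℍ) (x y : ℂ),
      J w f (actX (mapGL ℝ γ) x y) (actY (mapGL ℝ γ) x y) ((mapGL ℝ γ) • τ) = J w f x y τ := by
    intro τ x y
    have h1 := J_comp_sub_const hk hT hg (by rw [hfg]; exact hT) x y τ UpperHalfPlane.I
    rw [hfg] at h1
    have h2 := hD x y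
    rw [sepD] at h2
    rw [h2] at h1
    exact sub_eq_zero.mp h1
  funext τ
  rw [sep_slash_neg w _ (sep_det_mapGL γ)]
  have h3 := hall τ τ 1
  rw [sep_J_act_diag w f hg, J_diag] at h3
  have hw : (w.factorial : ℂ) ≠ 0 := by exact_mod_cast w.factorial_ne_zero
  have h4 : (w.factorial : ℂ) * (denom (mapGL ℝ γ) τ ^ w * E f (w + 1) ((mapGL ℝ γ) • τ))
      = (w.factorial : ℂ) * E f (w + 1) τ := by
    rw [← h3]; ring
  exact mul_left_cancel₀ hw h4

end Fermat.Agent.S22
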