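import Fermat.Agent.S22.Tower

/-!
# S22 helper: the polynomial-weighted Eichler integral `J`
-/

set_option autoImplicit false

open UpperHalfPlane hiding I
open Function Complex Filter Topology
open scoped Real Manifold MatrixGroups ModularForm

namespace Fermat.Agent.S22

/-- first coordinate of `g • (x, y)` -/
noncomputable def actX (g : GL (Fin 2) ℝ) (x y : ℂ) : ℂ := g 0 0 * x + g 0 1 * y
/-- second coordinate of `g • (x, y)` -/
noncomputable def actY (g : GL (Fin 2) ℝ) (x y : ℂ) : ℂ := g 1 0 * x + g 1 1 * y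

/-- `J w f x y τ = ∫_{i∞}^τ f(u) (x - y u)^w du`, defined through iterated primitives. -/
noncomputable def J (w : ℕ) (f : ℍ → ℂ) (x y : ℂ) (τ : ℍ) : ℂ :=
  ∑ n ∈ Finset.range (w + 1),
    (w.descFactorial n : ℂ) * y ^ n * (x - y * τ) ^ (w - n) * E f (n + 1) τ

theorem hasDerivH_const_iff {D : ℍ → ℂ} (hD : HasDerivH D 0) (τ τ' : ℍ) : D τ = D τ' := by
  have hdiff : DifferentiableOn ℂ (D ∘ ofComplex) upperHalfPlaneSet := by
    intro z hz
    exact (hD ⟨z, hz⟩).differentiableAt.differentiableWithinAt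
  have hderiv : Set.EqOn (deriv (D ∘ ofComplex)) 0 upperHalfPlaneSet := by
    intro z hz
    exact (hD ⟨z, hz⟩).deriv
  have hconv : IsPreconnected upperHalfPlaneSet :=
    (convex_halfSpace_im_gt (0 : ℝ)).isPreconnected
  have := isOpen_upperHalfPlaneSet.is_const_of_deriv_eq_zero hconv hdiff hderiv
    (x := (τ : ℂ)) (y := (τ' : ℂ)) τ.im_pos τ'.im_pos
  simpa [Function.comp, ofComplex_apply] using this

theorem hasDerivH_J {w : ℕ} {f : ℍ → ℂ} (hf : HasTower f) (x y : ℂ) :
    HasDerivH (J w f x y) (fun τ => (x - y * τ) ^ w * f τ) := by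
  intro τ
  have hT := hf.isTower
  -- derivative of each term
  have hterm : ∀ n : ℕ, HasDerivAt
      (fun z : ℂ => (w.descFactorial n : ℂ) * y ^ n * (x - y * z) ^ (w - n) *
        (E f (n + 1) ∘ ofComplex) z)
      ((w.descFactorial n : ℂ) * y ^ n * (((w - n : ℕ) : ℂ) * (x - y * τ) ^ (w - n - 1) * (-y)) *
          E f (n + 1) τ +
        (w.descFactorial n : ℂ) * y ^ n * (x - y * τ) ^ (w - n) * E f n τ) (τ : ℂ) := by
    intro n
    have h1 : HasDerivAt (fun z : ℂ => x - y * z) (-y) (τ : ℂ) := by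
      simpa using ((hasDerivAt_id (τ : ℂ)).const_mul y).const_sub x
    have h2 := h1.fun_pow (w - n)
    have h3 := (h2.const_mul ((w.descFactorial n : ℂ) * y ^ n)).fun_mul (hT.deriv n τ)
    simp only [Function.comp_apply, ofComplex_apply] at h3
    exact h3
  have hsum := HasDerivAt.fun_sum (u := Finset.range (w + 1)) (fun n _ => hterm n)
  have hval : (∑ n ∈ Finset.range (w + 1),
      ((w.descFactorial n : ℂ) * y ^ n * (((w - n : ℕ) : ℂ) * (x - y * τ) ^ (w - n - 1) * (-y)) *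
          E f (n + 1) τ +
        (w.descFactorial n : ℂ) * y ^ n * (x - y * τ) ^ (w - n) * E f n τ))
      = (x - y * τ) ^ w * f τ := by
    have key : ∀ n ∈ Finset.range (w + 1),
        ((w.descFactorial n : ℂ) * y ^ n * (((w - n : ℕ) : ℂ) * (x - y * τ) ^ (w - n - 1) * (-y)) *
          E f (n + 1) τ +
        (w.descFactorial n : ℂ) * y ^ n * (x - y * τ) ^ (w - n) * E f n τ)
        = (fun m : ℕ => (w.descFactorial m : ℂ) * y ^ m * (x - y * τ) ^ (w - m) * E f m τ) n -
          (fun m : ℕ => (w.descFactorial m : ℂ) * y ^ m * (x - y * τ) ^ (w - m) * E f m τ)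
            (n + 1) := by
      intro n _
      simp only
      rw [Nat.descFactorial_succ, Nat.sub_add_eq]
      push_cast
      ring
    rw [Finset.sum_congr rfl key, Finset.sum_range_sub']
    have h0 : w.descFactorial (w + 1) = 0 := Nat.descFactorial_of_lt (Nat.lt_succ_self w)
    simp [h0, hT.zero]
  rw [hval] at hsum
  refine hsum.congr_of_eventuallyEq ?_
  filter_upwards [isOpen_upperHalfPlaneSet.mem_nhds τ.im_pos] with z hz
  simp [J, Function.comp, ofComplex_apply_of_im_pos hz]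

theorem HasDerivH.comp_smul {F f : ℍ → ℂ} (hF : HasDerivH F f) {g : GL (Fin 2) ℝ}
    (hg : 0 < g.val.det) :
    HasDerivH (fun τ => F (g • τ))
      (fun τ => f (g • τ) * ((g.val.det : ℂ) / denom g τ ^ 2)) := by
  intro τ
  have h1 := (hasStrictDerivAt_smul hg τ).hasDerivAt
  have h2 : HasDerivAt (F ∘ ofComplex) (f (g • τ))
      ((fun z : ℂ => ((g • ofComplex z : ℍ) : ℂ)) (τ : ℂ)) := by
    simpa [ofComplex_apply] using hF (g • τ)
  have h3 := HasDerivAt.comp (τ : ℂ) h2 h1
  refine h3.congr_of_eventuallyEq ?_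
  exact Eventually.of_forall fun z => by simp [Function.comp, ofComplex_apply]

theorem slash_apply_of_det_pos (k : ℤ) (f : ℍ → ℂ) {g : GL (Fin 2) ℝ} (hg : 0 < g.val.det)
    (τ : ℍ) :
    (f ∣[k] g) τ = f (g • τ) * (g.val.det : ℂ) ^ (k - 1) * denom g τ ^ (-k) := by
  have hdet : g.det.val = g.val.det := Matrix.GeneralLinearGroup.val_det_apply g
  rw [ModularForm.slash_apply, hdet, abs_of_pos hg]
  have hσ : σ g = ContinuousAlgEquiv.refl ℝ ℂ := by
    rw [σ, if_pos (by rw [hdet]; exact hg)]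
  rw [hσ]
  rfl

theorem coe_smul_of_pos {g : GL (Fin 2) ℝ} (hg : 0 < g.val.det) (τ : ℍ) :
    ((g • τ : ℍ) : ℂ) = num g τ / denom g τ := by
  have hdet : g.det.val = g.val.det := Matrix.GeneralLinearGroup.val_det_apply g
  exact coe_smul_of_det_pos (by rw [hdet]; exact hg) τ

theorem act_sub_mul_denom (g : GL (Fin 2) ℝ) (hg : 0 < g.val.det) (x y : ℂ) (τ : ℍ) :
    actX g x y - actY g x y * ((g • τ : ℍ) : ℂ)
      = (g.val.det : ℂ) * (x - y * τ) / denom g τ := by
  have hd : denom g τ ≠ 0 := denom_ne_zero g τ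
  rw [coe_smul_of_pos hg, Matrix.det_fin_two]
  simp only [actX, actY, num, denom] at *
  push_cast
  field_simp
  ring

theorem J_comp_sub_const {w : ℕ} {k : ℤ} (hk : k = w + 2) {f : ℍ → ℂ} (hf : HasTower f)
    {g : GL (Fin 2) ℝ} (hg : 0 < g.val.det) (hfg : HasTower (f ∣[k] g)) (x y : ℂ) (τ τ' : ℍ) :
    J w f (actX g x y) (actY g x y) (g • τ) - J w (f ∣[k] g) x y τ
      = J w f (actX g x y) (actY g x y) (g • τ') - J w (f ∣[k] g) x y τ' := by
  have h1 := (hasDerivH_J (w := w) hf (actX g x y) (actY g x y)).comp_smul hg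
  have h2 := hasDerivH_J (w := w) hfg x y
  have h3 := h1.sub h2
  have hzero : ((fun τ : ℍ => (actX g x y - actY g x y * ((g • τ : ℍ) : ℂ)) ^ w * f (g • τ) *
      ((g.val.det : ℂ) / denom g τ ^ 2)) - fun τ : ℍ => (x - y * τ) ^ w * (f ∣[k] g) τ) = 0 := by
    funext τ
    have hd : denom g τ ≠ 0 := denom_ne_zero g τ
    have hdet : (g.val.det : ℂ) ≠ 0 := by exact_mod_cast hg.ne'
    simp only [Pi.sub_apply, Pi.zero_apply]
    rw [act_sub_mul_denom g hg, slash_apply_of_det_pos k f hg, hk]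
    have e1 : ((w : ℤ) + 2 - 1) = ((w + 1 : ℕ) : ℤ) := by push_cast; ring
    have e2 : (-((w : ℤ) + 2)) = -((w + 2 : ℕ) : ℤ) := by push_cast; ring
    rw [e1, e2, zpow_natCast, zpow_neg, zpow_natCast, div_pow, mul_pow]
    field_simp
    ring
  rw [hzero] at h3
  exact hasDerivH_const_iff h3 τ τ'

end Fermat.Agent.S22
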