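import Fermat.Agent.S22.JTri

/-!
# S22 helper: `J` is polynomial in the `(x, y)` variables
-/

set_option autoImplicit false

open UpperHalfPlane hiding I
open Function Complex Filter Topology
open scoped Real Manifold MatrixGroups ModularForm

namespace Fermat.Agent.S22

open Polynomial in
/-- `x ↦ J w f (a x + b) (c x + d) τ` is a polynomial function. -/
theorem J_poly (w : ℕ) (f : ℍ → ℂ) (a b c d : ℂ) (τ : ℍ) :
    ∃ P : Polynomial ℂ, ∀ x : ℂ, P.eval x = J w f (a * x + b) (c * x + d) τ := by
  refine ⟨∑ n ∈ Finset.range (w + 1),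
    C ((w.descFactorial n : ℂ)) * (C c * X + C d) ^ n *
      ((C a * X + C b) - (C c * X + C d) * C (τ : ℂ)) ^ (w - n) * C (E f (n + 1) τ), fun x => ?_⟩
  unfold J
  rw [Polynomial.eval_finsetSum]
  refine Finset.sum_congr rfl fun n _ => ?_
  simp

/-- A polynomial function vanishing at all integers vanishes identically. -/
theorem poly_eq_zero_of_int (P : Polynomial ℂ) (h : ∀ n : ℤ, P.eval (n : ℂ) = 0) : P = 0 := by
  apply Polynomial.eq_zero_of_infinite_isRoot
  have hinj : Function.Injective (fun n : ℤ => (n : ℂ)) := fun a b hab => by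
    simp only at hab
    exact_mod_cast hab
  refine Set.Infinite.mono ?_ (Set.infinite_range_of_injective hinj)
  rintro _ ⟨n, rfl⟩
  exact h n

/-- A polynomial which is periodic (with nonzero period) along one orbit is constant there. -/
theorem poly_const_of_periodic (P : Polynomial ℂ) (M : ℂ) (hM : M ≠ 0)
    (z₀ : ℂ) (h : ∀ n : ℕ, P.eval (z₀ + n * M) = P.eval z₀) :
    P = Polynomial.C (P.eval z₀) := by
  have h0 : P - Polynomial.C (P.eval z₀) = 0 := by
    apply Polynomial.eq_zero_of_infinite_isRoot
    have hinj : Function.Injective (fun n : ℕ => z₀ + n * M) := by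
      intro a b hab
      simp only at hab
      have h1 : (a : ℂ) * M = b * M := add_left_cancel hab
      have h2 : (a : ℂ) = b := mul_right_cancel₀ hM h1
      exact_mod_cast h2
    refine Set.Infinite.mono ?_ (Set.infinite_range_of_injective hinj)
    rintro _ ⟨n, rfl⟩
    simp [h n]
  exact sub_eq_zero.mp h0

end Fermat.Agent.S22
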