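import Fermat.Agent.S22.JDef

/-!
# S22 helper: change of variables for upper triangular matrices, homogeneity
-/

set_option autoImplicit false

open UpperHalfPlane hiding I
open Function Complex Filter Topology
open scoped Real Manifold MatrixGroups ModularForm

namespace Fermat.Agent.S22

theorem det_eq_of_tri {g : GL (Fin 2) ℝ} (hg10 : g 1 0 = 0) : g.val.det = g 0 0 * g 1 1 := by
  rw [Matrix.det_fin_two]
  have : g.val 1 0 = 0 := hg10
  rw [this]; ring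

theorem denom_of_tri {g : GL (Fin 2) ℝ} (hg10 : g 1 0 = 0) (z : ℂ) : denom g z = g 1 1 := by
  simp [denom, hg10]

theorem zpow_helper (a d F : ℂ) (ha : a ≠ 0) (hd : d ≠ 0) (w : ℕ) :
    a ^ ((w : ℤ) + 1) * d ^ (-1 : ℤ) * F = F * (a * d) ^ ((w : ℤ) + 1) * d ^ (-((w : ℤ) + 2)) := by
  have e1 : ((w : ℤ) + 1) = ((w + 1 : ℕ) : ℤ) := by push_cast; ring
  have e2 : (-((w : ℤ) + 2)) = -((w + 2 : ℕ) : ℤ) := by push_cast; ring
  rw [e1, e2]
  simp only [zpow_natCast, zpow_neg, zpow_one]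
  field_simp
  ring

/-- the tower of `f ∣[k] g` for upper triangular `g` -/
noncomputable def triTower (w : ℕ) (f : ℍ → ℂ) (g : GL (Fin 2) ℝ) (n : ℕ) (τ : ℍ) : ℂ :=
  ((g 0 0 : ℝ) : ℂ) ^ ((w : ℤ) + 1 - n) * ((g 1 1 : ℝ) : ℂ) ^ ((n : ℤ) - 1) * E f n (g • τ)

theorem isTower_triTower {w : ℕ} {k : ℤ} (hk : k = w + 2) {f : ℍ → ℂ} (hf : HasTower f)
    {g : GL (Fin 2) ℝ} (hg10 : g 1 0 = 0) (hg : 0 < g.val.det) :
    IsTower (f ∣[k] g) (triTower w f g) := by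
  have hT := hf.isTower
  have hdet := det_eq_of_tri hg10
  have had : g 0 0 * g 1 1 ≠ 0 := by rw [← hdet]; exact hg.ne'
  have ha : ((g 0 0 : ℝ) : ℂ) ≠ 0 := by
    exact_mod_cast left_ne_zero_of_mul had
  have hd : ((g 1 1 : ℝ) : ℂ) ≠ 0 := by
    exact_mod_cast right_ne_zero_of_mul had
  refine ⟨?_, ?_, ?_⟩
  · funext τ
    rw [slash_apply_of_det_pos k f hg, denom_of_tri hg10, hdet, hk]
    simp only [triTower, hT.zero]
    push_cast
    have e1 : ((w : ℤ) + 2 - 1) = (w : ℤ) + 1 := by ring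
    have e2 : ((w : ℤ) + 1 - 0) = (w : ℤ) + 1 := sub_zero _
    rw [e1, e2]
    exact zpow_helper _ _ _ ha hd w
  · intro n
    have h1 := ((hT.deriv n).comp_smul hg).const_smul
      (((g 0 0 : ℝ) : ℂ) ^ ((w : ℤ) + 1 - (n + 1 : ℕ)) * ((g 1 1 : ℝ) : ℂ) ^ (((n + 1 : ℕ) : ℤ) - 1))
    have hfun : (((g 0 0 : ℝ) : ℂ) ^ ((w : ℤ) + 1 - (n + 1 : ℕ)) *
        ((g 1 1 : ℝ) : ℂ) ^ (((n + 1 : ℕ) : ℤ) - 1)) • (fun τ : ℍ => E f (n + 1) (g • τ))
        = triTower w f g (n + 1) := by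
      funext τ
      simp [triTower]
    have hder : (((g 0 0 : ℝ) : ℂ) ^ ((w : ℤ) + 1 - (n + 1 : ℕ)) *
        ((g 1 1 : ℝ) : ℂ) ^ (((n + 1 : ℕ) : ℤ) - 1)) •
          (fun τ : ℍ => E f n (g • τ) * ((g.val.det : ℂ) / denom g τ ^ 2))
        = triTower w f g n := by
      funext τ
      simp only [Pi.smul_apply, smul_eq_mul, triTower, denom_of_tri hg10, hdet]
      push_cast
      have e1 : ((w : ℤ) + 1 - n) = ((w : ℤ) + 1 - (n + 1)) + 1 := by ring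
      have e2 : ((n : ℤ) + 1 - 1) = ((n : ℤ) - 1) + 1 := by ring
      rw [e1, e2, zpow_add_one₀ ha, zpow_add_one₀ hd]
      field_simp
    rw [hfun, hder] at h1
    exact h1
  · intro n
    have h1 : Tendsto (fun τ : ℍ => E f (n + 1) (g • τ)) atImInfty (𝓝 0) :=
      (hT.decay n).comp (tendsto_smul_atImInfty hg10)
    have h2 := Tendsto.const_mul (((g 0 0 : ℝ) : ℂ) ^ ((w : ℤ) + 1 - (n + 1 : ℕ)) *
      ((g 1 1 : ℝ) : ℂ) ^ (((n + 1 : ℕ) : ℤ) - 1)) h1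
    rw [mul_zero] at h2
    exact h2

theorem hasTower_slash_tri {w : ℕ} {k : ℤ} (hk : k = w + 2) {f : ℍ → ℂ} (hf : HasTower f)
    {g : GL (Fin 2) ℝ} (hg10 : g 1 0 = 0) (hg : 0 < g.val.det) : HasTower (f ∣[k] g) :=
  ⟨_, isTower_triTower hk hf hg10 hg⟩

theorem J_slash_tri {w : ℕ} {k : ℤ} (hk : k = w + 2) {f : ℍ → ℂ} (hf : HasTower f)
    {g : GL (Fin 2) ℝ} (hg10 : g 1 0 = 0) (hg : 0 < g.val.det) (x y : ℂ) (τ : ℍ) :
    J w (f ∣[k] g) x y τ = J w f (actX g x y) (actY g x y) (g • τ) := by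
  have hdet := det_eq_of_tri hg10
  have had : g 0 0 * g 1 1 ≠ 0 := by rw [← hdet]; exact hg.ne'
  have ha : ((g 0 0 : ℝ) : ℂ) ≠ 0 := by
    exact_mod_cast left_ne_zero_of_mul had
  have hd : ((g 1 1 : ℝ) : ℂ) ≠ 0 := by
    exact_mod_cast right_ne_zero_of_mul had
  unfold J
  rw [(isTower_triTower hk hf hg10 hg).E_eq]
  refine Finset.sum_congr rfl fun n hn => ?_
  have hn' : n ≤ w := Nat.lt_succ_iff.mp (Finset.mem_range.mp hn)
  rw [act_sub_mul_denom g hg, denom_of_tri hg10, hdet]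
  have hY : actY g x y = ((g 1 1 : ℝ) : ℂ) * y := by simp [actY, hg10]
  rw [hY]
  simp only [triTower]
  push_cast
  have e1 : ((w : ℤ) + 1 - ((n : ℤ) + 1)) = ((w - n : ℕ) : ℤ) := by
    rw [Nat.cast_sub hn']; ring
  have e2 : ((n : ℤ) + 1 - 1) = ((n : ℕ) : ℤ) := by ring
  rw [e1, e2, zpow_natCast, zpow_natCast, mul_pow, div_pow, mul_pow, mul_pow]
  field_simp

theorem J_homog (w : ℕ) (f : ℍ → ℂ) (c x y : ℂ) (τ : ℍ) :
    J w f (c * x) (c * y) τ = c ^ w * J w f x y τ := by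
  unfold J
  rw [Finset.mul_sum]
  refine Finset.sum_congr rfl fun n hn => ?_
  have hn' : n ≤ w := Nat.lt_succ_iff.mp (Finset.mem_range.mp hn)
  have : c ^ w = c ^ n * c ^ (w - n) := by rw [← pow_add, Nat.add_sub_cancel' hn']
  rw [this, show c * x - c * y * (τ : ℂ) = c * (x - y * τ) by ring, mul_pow, mul_pow]
  ring

theorem J_diag (w : ℕ) (f : ℍ → ℂ) (τ : ℍ) :
    J w f τ 1 τ = (w.factorial : ℂ) * E f (w + 1) τ := by
  unfold J
  rw [Finset.sum_range_succ]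
  have : ∑ n ∈ Finset.range w, (w.descFactorial n : ℂ) * 1 ^ n * ((τ : ℂ) - 1 * τ) ^ (w - n) *
      E f (n + 1) τ = 0 := by
    refine Finset.sum_eq_zero fun n hn => ?_
    have hn' : n < w := Finset.mem_range.mp hn
    have : w - n ≠ 0 := by omega
    simp [this]
  rw [this]
  simp [Nat.descFactorial_self]

theorem J_add {w : ℕ} {f g : ℍ → ℂ} (hf : HasTower f) (hg : HasTower g) (x y : ℂ) (τ : ℍ) :
    J w (f + g) x y τ = J w f x y τ + J w g x y τ := by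
  unfold J
  rw [E_add hf hg, ← Finset.sum_add_distrib]
  refine Finset.sum_congr rfl fun n _ => ?_
  simp only [Pi.add_apply]
  ring

theorem J_smul {w : ℕ} {f : ℍ → ℂ} (hf : HasTower f) (c : ℂ) (x y : ℂ) (τ : ℍ) :
    J w (c • f) x y τ = c * J w f x y τ := by
  unfold J
  rw [E_smul hf c, Finset.mul_sum]
  refine Finset.sum_congr rfl fun n _ => ?_
  simp only [Pi.smul_apply, smul_eq_mul]
  ring

theorem J_sum {w : ℕ} {ι : Type*} (s : Finset ι) (f : ι → ℍ → ℂ) (h : ∀ i ∈ s, HasTower (f i))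
    (x y : ℂ) (τ : ℍ) :
    J w (∑ i ∈ s, f i) x y τ = ∑ i ∈ s, J w (f i) x y τ := by
  unfold J
  rw [E_sum s f h, Finset.sum_comm]
  refine Finset.sum_congr rfl fun n _ => ?_
  simp only [Finset.sum_apply]
  rw [Finset.mul_sum]

end Fermat.Agent.S22
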