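import Fermat.Agent.S22.Periods
import Fermat.Prelude.Def_CuspForm_HeckeAlgebra
import Fermat.Prelude.Sol.S_ModularForm_heckeT_slash_eq_self_of_mem_Gamma0
import Fermat.Prelude.Thm_CongruenceSubgroup_one_mem_strictPeriods_Gamma0

/-!
# S22 helper: the period lattice in the dual of the space of cusp forms
-/

set_option autoImplicit false

open UpperHalfPlane hiding I
open Function Complex Filter Topology
open CongruenceSubgroup Matrix.SpecialLinearGroup
open scoped Real Manifold MatrixGroups ModularForm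

namespace Fermat.Agent.S22

variable {N : ℕ} [NeZero N] {k : ℤ}

theorem cuspForm_isCuspLike (f : CuspForm (Gamma0 N) k) : IsCuspLike 1 ⇑f where
  hol := CuspFormClass.holo f
  per := by
    have := SlashInvariantFormClass.periodic_comp_ofComplex f (one_mem_strictPeriods_Gamma0 N)
    simpa using this
  zero := (OnePoint.isZeroAt_infty_iff).mp (CuspFormClass.zero_at_cusps f Fact.out)

theorem cuspForm_hasTower (f : CuspForm (Gamma0 N) k) : HasTower ⇑f :=
  (cuspForm_isCuspLike f).hasTower one_pos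

theorem cuspForm_slash_eq (f : CuspForm (Gamma0 N) k) {γ : SL(2, ℤ)} (hγ : γ ∈ Gamma0 N) :
    ⇑f ∣[k] (mapGL ℝ γ) = ⇑f :=
  SlashInvariantFormClass.slash_action_eq f _ (Subgroup.mem_map_of_mem _ hγ)

theorem det_mapGL_pos (γ : SL(2, ℤ)) : 0 < (mapGL ℝ γ).val.det := by
  rw [← Matrix.GeneralLinearGroup.val_det_apply]
  simp

theorem actX_mapGL (γ : SL(2, ℤ)) (x y : ℤ) :
    actX (mapGL ℝ γ) x y = ((γ 0 0 * x + γ 0 1 * y : ℤ) : ℂ) := by
  simp [actX]

theorem actY_mapGL (γ : SL(2, ℤ)) (x y : ℤ) :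
    actY (mapGL ℝ γ) x y = ((γ 1 0 * x + γ 1 1 * y : ℤ) : ℂ) := by
  simp [actY]

variable (N k)

/-- evaluation functional `f ↦ E f n τ` -/
noncomputable def evE (n : ℕ) (τ : ℍ) : Module.Dual ℂ (CuspForm (Gamma0 N) k) where
  toFun f := E ⇑f n τ
  map_add' f g := by
    rw [FunLike.coe_add, E_add (cuspForm_hasTower f) (cuspForm_hasTower g)]
    rfl
  map_smul' c f := by
    rw [FunLike.coe_smul, E_smul (cuspForm_hasTower f)]
    rfl

/-- the functional `f ↦ J w f x y τ` -/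
noncomputable def Jfun (w : ℕ) (x y : ℂ) (τ : ℍ) : Module.Dual ℂ (CuspForm (Gamma0 N) k) :=
  ∑ n ∈ Finset.range (w + 1),
    ((w.descFactorial n : ℂ) * y ^ n * (x - y * τ) ^ (w - n)) • evE N k (n + 1) τ

/-- the period functional -/
noncomputable def perFun (w : ℕ) (γ : SL(2, ℤ)) (x y : ℤ) :
    Module.Dual ℂ (CuspForm (Gamma0 N) k) :=
  Jfun N k w (actX (mapGL ℝ γ) x y) (actY (mapGL ℝ γ) x y) (mapGL ℝ γ • UpperHalfPlane.I)
    - Jfun N k w x y UpperHalfPlane.I

variable {N k}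

@[simp] theorem evE_apply (n : ℕ) (τ : ℍ) (f : CuspForm (Gamma0 N) k) :
    evE N k n τ f = E ⇑f n τ := rfl

@[simp] theorem Jfun_apply (w : ℕ) (x y : ℂ) (τ : ℍ) (f : CuspForm (Gamma0 N) k) :
    Jfun N k w x y τ f = J w ⇑f x y τ := by
  simp [Jfun, J, LinearMap.sum_apply]

@[simp] theorem perFun_apply (w : ℕ) (γ : SL(2, ℤ)) (x y : ℤ) (f : CuspForm (Gamma0 N) k) :
    perFun N k w γ x y f = per w ⇑f (mapGL ℝ γ) x y := by
  simp [perFun, per]

variable (N k)

/-- the finite spanning set of functionals at the point `τ` -/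
noncomputable def basisSet (w : ℕ) (τ : ℍ) : Set (Module.Dual ℂ (CuspForm (Gamma0 N) k)) :=
  Set.range fun p : Fin (w + 1) × Fin (w + 1) => ((τ : ℂ) ^ (p.2 : ℕ)) • evE N k ((p.1 : ℕ) + 1) τ

theorem basisSet_finite (w : ℕ) (τ : ℍ) : (basisSet N k w τ).Finite :=
  Set.finite_range _

variable {N k}

theorem Jfun_int_mem (w : ℕ) (X Y : ℤ) (τ : ℍ) :
    Jfun N k w X Y τ ∈ Submodule.span ℤ (basisSet N k w τ) := by
  unfold Jfun
  refine Submodule.sum_mem _ fun n hn => ?_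
  have hn' : n < w + 1 := Finset.mem_range.mp hn
  have hexp : ((X : ℂ) - Y * τ) ^ (w - n)
      = ∑ m ∈ Finset.range (w - n + 1),
          (((X ^ m * (-Y) ^ (w - n - m) * ((w - n).choose m : ℤ) : ℤ) : ℂ)) * (τ : ℂ) ^ (w - n - m) := by
    rw [show (X : ℂ) - Y * τ = X + (-Y * τ) by ring, add_pow]
    refine Finset.sum_congr rfl fun m _ => ?_
    push_cast
    rw [mul_pow]
    ring
  rw [hexp, Finset.mul_sum, Finset.sum_smul]
  refine Submodule.sum_mem _ fun m hm => ?_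
  have hm' : w - n - m < w + 1 := by omega
  have : ((w.descFactorial n : ℂ) * (Y : ℂ) ^ n *
      ((((X ^ m * (-Y) ^ (w - n - m) * ((w - n).choose m : ℤ) : ℤ) : ℂ)) * (τ : ℂ) ^ (w - n - m))) •
        evE N k (n + 1) τ
      = ((w.descFactorial n : ℤ) * Y ^ n * (X ^ m * (-Y) ^ (w - n - m) * ((w - n).choose m : ℤ))) •
        (((τ : ℂ) ^ (w - n - m)) • evE N k (n + 1) τ) := by
    rw [← Int.cast_smul_eq_zsmul ℂ, smul_smul]
    congr 1
    push_cast
    ring
  rw [this]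
  exact Submodule.smul_mem _ _ (Submodule.subset_span ⟨(⟨n, hn'⟩, ⟨w - n - m, hm'⟩), rfl⟩)

theorem perFun_mem (w : ℕ) (γ : SL(2, ℤ)) (x y : ℤ) :
    perFun N k w γ x y ∈ Submodule.span ℤ
      (basisSet N k w (mapGL ℝ γ • UpperHalfPlane.I) ∪ basisSet N k w UpperHalfPlane.I) := by
  unfold perFun
  rw [actX_mapGL, actY_mapGL]
  refine Submodule.sub_mem _ ?_ ?_
  · exact Submodule.span_mono Set.subset_union_left (Jfun_int_mem w _ _ _)
  · exact Submodule.span_mono Set.subset_union_right (Jfun_int_mem w _ _ _)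

end Fermat.Agent.S22
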