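import Fermat.Agent.S22.Lattice

/-!
# S22 helper: the period lattice is finitely generated
-/

set_option autoImplicit false

open UpperHalfPlane hiding I
open Function Complex Filter Topology
open CongruenceSubgroup Matrix.SpecialLinearGroup
open scoped Real Manifold MatrixGroups ModularForm

namespace Fermat.Agent.S22

variable {N : ℕ} [NeZero N] {k : ℤ} {w : ℕ}

theorem perFun_one (x y : ℤ) : perFun N k w 1 x y = 0 := by
  ext f
  simp [per_one]

theorem perFun_mul (hk : k = w + 2) {γ : SL(2, ℤ)} (hγ : γ ∈ Gamma0 N) (δ : SL(2, ℤ))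
    (x y : ℤ) :
    perFun N k w (γ * δ) x y
      = perFun N k w γ (δ 0 0 * x + δ 0 1 * y) (δ 1 0 * x + δ 1 1 * y) + perFun N k w δ x y := by
  ext f
  simp only [LinearMap.add_apply, perFun_apply, map_mul]
  rw [per_mul hk (cuspForm_hasTower f) (det_mapGL_pos γ) (cuspForm_slash_eq f hγ),
    actX_mapGL, actY_mapGL]

variable (N k w)

/-- The lattice of periods. -/
noncomputable def periodLattice : Submodule ℤ (Module.Dual ℂ (CuspForm (Gamma0 N) k)) :=
  Submodule.span ℤ {φ | ∃ γ ∈ Gamma0 N, ∃ x y : ℤ, φ = perFun N k w γ x y}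

variable {N k w}

theorem perFun_mem_periodLattice {γ : SL(2, ℤ)} (hγ : γ ∈ Gamma0 N) (x y : ℤ) :
    perFun N k w γ x y ∈ periodLattice N k w :=
  Submodule.subset_span ⟨γ, hγ, x, y, rfl⟩

theorem periodLattice_fg (hk : k = w + 2) (hfg : Group.FG (Gamma0 N)) :
    (periodLattice N k w).FG := by
  obtain ⟨S, hS⟩ := Group.fg_def.mp hfg
  set B : Set (Module.Dual ℂ (CuspForm (Gamma0 N) k)) :=
    (⋃ s ∈ S, basisSet N k w (mapGL ℝ (s : SL(2, ℤ)) • UpperHalfPlane.I)) ∪
      basisSet N k w UpperHalfPlane.I with hB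
  have hBfin : B.Finite := by
    refine Set.Finite.union ?_ (basisSet_finite N k w _)
    exact Set.Finite.biUnion S.finite_toSet fun s _ => basisSet_finite N k w _
  have key : ∀ γ : Gamma0 N, ∀ x y : ℤ,
      perFun N k w (γ : SL(2, ℤ)) x y ∈ Submodule.span ℤ B := by
    intro γ
    have hγ : γ ∈ Subgroup.closure (S : Set (Gamma0 N)) := by rw [hS]; exact Subgroup.mem_top γ
    induction hγ using Subgroup.closure_induction with
    | mem s hs =>
      intro x y
      refine Submodule.span_mono ?_ (perFun_mem w (s : SL(2, ℤ)) x y)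
      refine Set.union_subset_union_left _ ?_
      exact Set.subset_biUnion_of_mem (u := fun s : Gamma0 N =>
        basisSet N k w (mapGL ℝ (s : SL(2, ℤ)) • UpperHalfPlane.I)) hs
    | one =>
      intro x y
      rw [Subgroup.coe_one, perFun_one]
      exact Submodule.zero_mem _
    | mul a b _ _ iha ihb =>
      intro x y
      rw [Subgroup.coe_mul, perFun_mul hk a.2]
      exact Submodule.add_mem _ (iha _ _) (ihb _ _)
    | inv a _ iha =>
      intro x y
      have h := perFun_mul (w := w) hk a.2 ((a : SL(2, ℤ))⁻¹) x y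
      rw [mul_inv_cancel, perFun_one] at h
      have h2 : perFun N k w ((a⁻¹ : Gamma0 N) : SL(2, ℤ)) x y
          = - perFun N k w (a : SL(2, ℤ))
              ((a : SL(2, ℤ))⁻¹ 0 0 * x + (a : SL(2, ℤ))⁻¹ 0 1 * y)
              ((a : SL(2, ℤ))⁻¹ 1 0 * x + (a : SL(2, ℤ))⁻¹ 1 1 * y) := by
        rw [Subgroup.coe_inv]
        exact eq_neg_of_add_eq_zero_right h.symm
      rw [h2]
      exact Submodule.neg_mem _ (iha _ _)
  have hle : periodLattice N k w ≤ Submodule.span ℤ B := by
    refine Submodule.span_le.mpr ?_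
    rintro φ ⟨γ, hγ, x, y, rfl⟩
    exact key ⟨γ, hγ⟩ x y
  haveI : IsNoetherian ℤ (Submodule.span ℤ B) := isNoetherian_span_of_finite ℤ hBfin
  haveI : IsNoetherian ℤ (periodLattice N k w) := isNoetherian_of_le hle
  exact Module.Finite.iff_fg.mp inferInstance

end Fermat.Agent.S22
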