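import Fermat.Agent.S22.JTri

/-!
# S22 helper: periods, cocycle relation, abstract Hecke compatibility
-/

set_option autoImplicit false

open UpperHalfPlane hiding I
open Function Complex Filter Topology
open scoped Real Manifold MatrixGroups ModularForm

namespace Fermat.Agent.S22

theorem actX_mul (g h : GL (Fin 2) ℝ) (x y : ℂ) :
    actX (g * h) x y = actX g (actX h x y) (actY h x y) := by
  simp only [actX, actY, Matrix.GeneralLinearGroup.coe_mul, Matrix.mul_apply, Fin.sum_univ_two]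
  push_cast
  ring

theorem actY_mul (g h : GL (Fin 2) ℝ) (x y : ℂ) :
    actY (g * h) x y = actY g (actX h x y) (actY h x y) := by
  simp only [actX, actY, Matrix.GeneralLinearGroup.coe_mul, Matrix.mul_apply, Fin.sum_univ_two]
  push_cast
  ring

@[simp] theorem actX_one (x y : ℂ) : actX 1 x y = x := by simp [actX]
@[simp] theorem actY_one (x y : ℂ) : actY 1 x y = y := by simp [actY]

/-- The period of `f` along `g`, against `(x - y u)^w`. -/
noncomputable def per (w : ℕ) (f : ℍ → ℂ) (g : GL (Fin 2) ℝ) (x y : ℂ) : ℂ :=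
  J w f (actX g x y) (actY g x y) (g • UpperHalfPlane.I) - J w f x y UpperHalfPlane.I

theorem per_eq {w : ℕ} {k : ℤ} (hk : k = w + 2) {f : ℍ → ℂ} (hf : HasTower f)
    {g : GL (Fin 2) ℝ} (hg : 0 < g.val.det) (hinv : f ∣[k] g = f) (x y : ℂ) (τ : ℍ) :
    J w f (actX g x y) (actY g x y) (g • τ) - J w f x y τ = per w f g x y := by
  have h := J_comp_sub_const hk hf hg (by rw [hinv]; exact hf) x y τ UpperHalfPlane.I
  rw [hinv] at h
  exact h

theorem per_one (w : ℕ) (f : ℍ → ℂ) (x y : ℂ) : per w f 1 x y = 0 := by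
  simp [per]

theorem per_mul {w : ℕ} {k : ℤ} (hk : k = w + 2) {f : ℍ → ℂ} (hf : HasTower f)
    {g h : GL (Fin 2) ℝ} (hg : 0 < g.val.det)
    (hginv : f ∣[k] g = f) (x y : ℂ) :
    per w f (g * h) x y = per w f g (actX h x y) (actY h x y) + per w f h x y := by
  have h1 := per_eq hk hf hg hginv (actX h x y) (actY h x y) (h • UpperHalfPlane.I)
  rw [← h1]
  simp only [per, actX_mul, actY_mul, mul_smul]
  ring

theorem per_inv {w : ℕ} {k : ℤ} (hk : k = w + 2) {f : ℍ → ℂ} (hf : HasTower f)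
    {g : GL (Fin 2) ℝ} (hg : 0 < g.val.det)
    (hginv : f ∣[k] g = f) (x y : ℂ) :
    per w f g⁻¹ x y = - per w f g (actX g⁻¹ x y) (actY g⁻¹ x y) := by
  have h := per_mul hk hf hg hginv (h := g⁻¹) x y
  rw [mul_inv_cancel, per_one] at h
  linear_combination -h

theorem per_add {w : ℕ} {f f' : ℍ → ℂ} (hf : HasTower f) (hf' : HasTower f')
    (g : GL (Fin 2) ℝ) (x y : ℂ) :
    per w (f + f') g x y = per w f g x y + per w f' g x y := by
  simp only [per, J_add hf hf']
  ring

theorem per_smul {w : ℕ} {f : ℍ → ℂ} (hf : HasTower f) (c : ℂ)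
    (g : GL (Fin 2) ℝ) (x y : ℂ) :
    per w (c • f) g x y = c * per w f g x y := by
  simp only [per, J_smul hf]
  ring

/-- Abstract Hecke compatibility of periods. -/
theorem per_sum_slash {w : ℕ} {k : ℤ} (hk : k = w + 2) {f : ℍ → ℂ} (hf : HasTower f)
    {ι : Type*} [Fintype ι] (R : ι → GL (Fin 2) ℝ) (hR10 : ∀ i, R i 1 0 = 0)
    (hRdet : ∀ i, 0 < (R i).val.det) (σ : Equiv.Perm ι)
    (γ : GL (Fin 2) ℝ) (γ' : ι → GL (Fin 2) ℝ)
    (hγ : ∀ i, R i * γ = γ' i * R (σ i))
    (hγ'det : ∀ i, 0 < (γ' i).val.det) (hinv : ∀ i, f ∣[k] γ' i = f) (x y : ℂ) :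
    per w (∑ i, f ∣[k] R i) γ x y
      = ∑ i, per w f (γ' i) (actX (R (σ i)) x y) (actY (R (σ i)) x y) := by
  have hT : ∀ i ∈ (Finset.univ : Finset ι), HasTower (f ∣[k] R i) := fun i _ =>
    hasTower_slash_tri hk hf (hR10 i) (hRdet i)
  have hJ : ∀ (x y : ℂ) (τ : ℍ), J w (∑ i, f ∣[k] R i) x y τ
      = ∑ i, J w f (actX (R i) x y) (actY (R i) x y) (R i • τ) := by
    intro x y τ
    rw [J_sum _ _ hT]
    exact Finset.sum_congr rfl fun i _ => J_slash_tri hk hf (hR10 i) (hRdet i) x y τ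
  rw [per, hJ, hJ, ← Finset.sum_sub_distrib]
  have h1 : ∀ i, J w f (actX (R i) (actX γ x y) (actY γ x y)) (actY (R i) (actX γ x y) (actY γ x y))
      (R i • γ • UpperHalfPlane.I)
      = J w f (actX (R (σ i)) x y) (actY (R (σ i)) x y) (R (σ i) • UpperHalfPlane.I)
        + per w f (γ' i) (actX (R (σ i)) x y) (actY (R (σ i)) x y) := by
    intro i
    rw [← actX_mul, ← actY_mul, ← mul_smul, hγ i, actX_mul, actY_mul, mul_smul]
    have := per_eq hk hf (hγ'det i) (hinv i) (actX (R (σ i)) x y) (actY (R (σ i)) x y)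
      (R (σ i) • UpperHalfPlane.I)
    linear_combination this
  simp only [h1]
  rw [Finset.sum_sub_distrib, Finset.sum_add_distrib]
  have h2 : ∑ i, J w f (actX (R (σ i)) x y) (actY (R (σ i)) x y) (R (σ i) • UpperHalfPlane.I)
      = ∑ i, J w f (actX (R i) x y) (actY (R i) x y) (R i • UpperHalfPlane.I) :=
    Equiv.sum_comp σ (fun i => J w f (actX (R i) x y) (actY (R i) x y) (R i • UpperHalfPlane.I))
  rw [h2]
  ring

end Fermat.Agent.S22
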