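import Fermat.Agent.S22.SepInv
import Fermat.Agent.S22.CuspLike

/-!
# S22 helper: boundedness at all cusps of the Eichler integral (separation, part "bdd")
-/

set_option autoImplicit false

open UpperHalfPlane hiding I
open Function Complex Filter Topology
open Matrix.SpecialLinearGroup
open scoped Real Manifold MatrixGroups ModularForm

namespace Fermat.Agent.S22

/-- translation by `n` in the upper half plane via `T ^ n` -/
theorem sepBdd_T_pow_smul (n : ℕ) (τ : ℍ) :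
    (((mapGL ℝ (ModularGroup.T ^ n) : GL (Fin 2) ℝ) • τ : ℍ) : ℂ) = (τ : ℂ) + n := by
  have h := ModularGroup.coe_T_zpow_smul_eq (z := τ) (n := (n : ℤ))
  rw [zpow_natCast] at h
  have h' : ((mapGL ℝ (ModularGroup.T ^ n) : GL (Fin 2) ℝ) • τ : ℍ) = (ModularGroup.T ^ n) • τ := rfl
  rw [h', h]
  simp

theorem sepBdd_denom_mapGL (γ : SL(2, ℤ)) (τ : ℍ) :
    denom (mapGL ℝ γ : GL (Fin 2) ℝ) τ = (γ 1 0 : ℂ) * τ + (γ 1 1 : ℂ) := by
  simp [denom]

theorem sepBdd_denom_T_pow (n : ℕ) (τ : ℍ) :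
    denom (mapGL ℝ (ModularGroup.T ^ n) : GL (Fin 2) ℝ) τ = 1 := by
  have e : (ModularGroup.T ^ n) = ModularGroup.T ^ (n : ℤ) := (zpow_natCast _ _).symm
  rw [sepBdd_denom_mapGL, e, ModularGroup.coe_T_zpow]
  simp

/-- `g T^N g⁻¹ ∈ Γ₀(N)` for every `g ∈ SL(2, ℤ)`. -/
theorem sepBdd_conj_T_pow_mem (N : ℕ) (g : SL(2, ℤ)) :
    g * ModularGroup.T ^ N * g⁻¹ ∈ CongruenceSubgroup.Gamma0 N := by
  have hT : ModularGroup.T ^ N ∈ CongruenceSubgroup.Gamma N := by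
    rw [CongruenceSubgroup.Gamma_mem]
    have : (ModularGroup.T ^ N) = ModularGroup.T ^ (N : ℤ) := (zpow_natCast _ _).symm
    rw [this, ModularGroup.coe_T_zpow]
    simp
  have hnormal := CongruenceSubgroup.Gamma_normal N
  have h1 : g * ModularGroup.T ^ N * g⁻¹ ∈ CongruenceSubgroup.Gamma N := hnormal.conj_mem _ hT g
  have hle : CongruenceSubgroup.Gamma N ≤ CongruenceSubgroup.Gamma0 N := by
    intro x hx
    rw [CongruenceSubgroup.Gamma_mem] at hx
    rw [CongruenceSubgroup.Gamma0_mem]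
    exact hx.2.2.1
  exact hle h1

theorem E_slash_bounded (N : ℕ) [NeZero N] (w : ℕ) (k : ℤ) (hk : k = w + 2) (f : ℍ → ℂ)
    (M : ℕ) (hM : 0 < M) (hcl : ∀ γ : SL(2, ℤ), IsCuspLike (M : ℝ) (f ∣[k] (mapGL ℝ γ)))
    (hinvΦ : ∀ γ ∈ CongruenceSubgroup.Gamma0 N,
      (E f (w + 1)) ∣[-(w : ℤ)] (mapGL ℝ γ) = E f (w + 1)) :
    ∀ g : SL(2, ℤ), IsBoundedAtImInfty ((E f (w + 1)) ∣[-(w : ℤ)] (mapGL ℝ g)) := by
  intro g
  have hMpos : (0 : ℝ) < (M : ℝ) := by exact_mod_cast hM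
  have hNpos : 0 < N := Nat.pos_of_ne_zero (NeZero.ne N)
  -- towers
  have hf1 : f ∣[k] (mapGL ℝ (1 : SL(2, ℤ))) = f := by
    rw [map_one, SlashAction.slash_one]
  have hTf : HasTower f := by
    have := (hcl 1).hasTower hMpos
    rwa [hf1] at this
  have hclg := hcl g
  have hTg : HasTower (f ∣[k] (mapGL ℝ g)) := hclg.hasTower hMpos
  set G : GL (Fin 2) ℝ := mapGL ℝ g with hG
  have hdet1 : G.val.det = 1 := sep_det_mapGL g
  have hdet : 0 < G.val.det := sep_det_pos g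
  set Φ : ℍ → ℂ := E f (w + 1) with hΦ
  set Ψ : ℍ → ℂ := E (f ∣[k] G) (w + 1) with hΨ
  have hw : (w.factorial : ℂ) ≠ 0 := by exact_mod_cast w.factorial_ne_zero
  -- the polynomial
  obtain ⟨P, hP⟩ := sepD_poly w f (f ∣[k] G) G UpperHalfPlane.I
  -- key identity
  have key : ∀ τ : ℍ, (w.factorial : ℂ) * (Φ ∣[-(w : ℤ)] G) τ
      = (w.factorial : ℂ) * Ψ τ + P.eval (τ : ℂ) := by
    intro τ
    have h1 := J_comp_sub_const hk hTf hdet hTg (τ : ℂ) 1 τ UpperHalfPlane.I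
    rw [sep_J_act_diag w f hdet, J_diag] at h1
    rw [sep_slash_neg w Φ hdet1, hP, sepD]
    linear_combination h1
  -- periodicity of `Φ ∣ G` with period `N`
  have hperΦ : ∀ τ : ℍ, ∀ τ' : ℍ, (τ' : ℂ) = (τ : ℂ) + N →
      (Φ ∣[-(w : ℤ)] G) τ' = (Φ ∣[-(w : ℤ)] G) τ := by
    intro τ τ' hτ'
    have hmem := sepBdd_conj_T_pow_mem N g
    have h1 := hinvΦ _ hmem
    have h2 : (Φ ∣[-(w : ℤ)] (mapGL ℝ (g * ModularGroup.T ^ N * g⁻¹))) ∣[-(w : ℤ)] G
        = (Φ ∣[-(w : ℤ)] G) ∣[-(w : ℤ)] (mapGL ℝ (ModularGroup.T ^ N)) := by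
      rw [← SlashAction.slash_mul, ← SlashAction.slash_mul, hG, ← map_mul, ← map_mul]
      congr 2
      group
    rw [h1] at h2
    have h3 := congrFun h2 τ
    rw [sep_slash_neg w _ (sep_det_mapGL (ModularGroup.T ^ N)), sepBdd_denom_T_pow, one_pow,
      one_mul] at h3
    have e : τ' = (mapGL ℝ (ModularGroup.T ^ N) : GL (Fin 2) ℝ) • τ :=
      UpperHalfPlane.ext (by rw [hτ', sepBdd_T_pow_smul])
    rw [h3, e]
  -- periodicity of `Ψ` with period `M`
  have hΨcl : IsCuspLike (M : ℝ) Ψ := hclg.E hMpos (w + 1)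
  have hperΨ : ∀ τ : ℍ, ∀ τ' : ℍ, (τ' : ℂ) = (τ : ℂ) + M → Ψ τ' = Ψ τ := by
    intro τ τ' hτ'
    have := hΨcl.per (τ : ℂ)
    simp only [comp_apply] at this
    have hτ'' : (τ' : ℂ) = (τ : ℂ) + ((M : ℝ) : ℂ) := by rw [hτ']; push_cast; rfl
    rw [← hτ'', ofComplex_apply, ofComplex_apply] at this
    exact this
  -- iterate periodicity
  have hperΦ' : ∀ (n : ℕ) (τ τ' : ℍ), (τ' : ℂ) = (τ : ℂ) + (n * N : ℕ) →
      (Φ ∣[-(w : ℤ)] G) τ' = (Φ ∣[-(w : ℤ)] G) τ := by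
    intro n
    induction n with
    | zero =>
      intro τ τ' h
      have : τ' = τ := UpperHalfPlane.ext (by simpa using h)
      rw [this]
    | succ n ih =>
      intro τ τ' h
      have him : 0 < ((τ : ℂ) + (n * N : ℕ)).im := by
        simpa using τ.im_pos
      set τ'' : ℍ := ⟨(τ : ℂ) + (n * N : ℕ), him⟩ with hτ''
      have h1 : (τ' : ℂ) = (τ'' : ℂ) + N := by
        rw [h]
        show _ = (τ : ℂ) + (n * N : ℕ) + N
        push_cast
        ring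
      rw [hperΦ τ'' τ' h1]
      exact ih τ τ'' rfl
  have hperΨ' : ∀ (n : ℕ) (τ τ' : ℍ), (τ' : ℂ) = (τ : ℂ) + (n * M : ℕ) → Ψ τ' = Ψ τ := by
    intro n
    induction n with
    | zero =>
      intro τ τ' h
      have : τ' = τ := UpperHalfPlane.ext (by simpa using h)
      rw [this]
    | succ n ih =>
      intro τ τ' h
      have him : 0 < ((τ : ℂ) + (n * M : ℕ)).im := by
        simpa using τ.im_pos
      set τ'' : ℍ := ⟨(τ : ℂ) + (n * M : ℕ), him⟩ with hτ''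
      have h1 : (τ' : ℂ) = (τ'' : ℂ) + M := by
        rw [h]
        show _ = (τ : ℂ) + (n * M : ℕ) + M
        push_cast
        ring
      rw [hperΨ τ'' τ' h1]
      exact ih τ τ'' rfl
  -- `P` is periodic with period `N * M`
  have hL : (0 : ℝ) < ((N * M : ℕ) : ℝ) := by exact_mod_cast Nat.mul_pos hNpos hM
  have hPper : ∀ τ : ℍ, P.eval ((τ : ℂ) + ((N * M : ℕ) : ℝ)) = P.eval (τ : ℂ) := by
    intro τ
    have him : 0 < ((τ : ℂ) + ((N * M : ℕ) : ℝ)).im := by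
      simpa using τ.im_pos
    set τ' : ℍ := ⟨(τ : ℂ) + ((N * M : ℕ) : ℝ), him⟩ with hτ'
    have e1 : (τ' : ℂ) = (τ : ℂ) + (M * N : ℕ) := by
      show (τ : ℂ) + ((N * M : ℕ) : ℝ) = _
      push_cast
      ring
    have e2 : (τ' : ℂ) = (τ : ℂ) + (N * M : ℕ) := by
      show (τ : ℂ) + ((N * M : ℕ) : ℝ) = _
      push_cast
      ring
    have h1 := hperΦ' M τ τ' e1
    have h2 := hperΨ' N τ τ' e2
    have k1 := key τ
    have k2 := key τ'
    have : P.eval (τ' : ℂ) = P.eval (τ : ℂ) := by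
      rw [h1, h2] at k2
      linear_combination k1 - k2
    exact this
  have hPconst := sep_poly_const_of_periodic P _ hL hPper
  -- conclusion
  have hfun : (Φ ∣[-(w : ℤ)] G) = fun τ => Ψ τ + (w.factorial : ℂ)⁻¹ * P.eval Complex.I := by
    funext τ
    have := key τ
    rw [hPconst (τ : ℂ)] at this
    field_simp
    linear_combination this
  rw [hfun]
  have hb1 : IsBoundedAtImInfty Ψ := hΨcl.zero.isBoundedAtImInfty
  have hb2 : IsBoundedAtImInfty (fun _ : ℍ => (w.factorial : ℂ)⁻¹ * P.eval Complex.I) :=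
    Filter.const_boundedAtFilter _ _
  exact hb1.add hb2

end Fermat.Agent.S22
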