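import Fermat.Agent.S22.JTri

/-!
# S22 helper: final step of the separation argument
-/

set_option autoImplicit false

open UpperHalfPlane hiding I
open Function Complex Filter Topology
open CongruenceSubgroup Matrix.SpecialLinearGroup
open scoped Real Manifold MatrixGroups ModularForm

namespace Fermat.Agent.S22

theorem E_eq_zero_of_succ {f : ℍ → ℂ} (hT : HasTower f) (n : ℕ) (h : E f (n + 1) = 0) :
    E f n = 0 := by
  funext τ
  have h1 := hT.isTower.deriv n τ
  rw [h] at h1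
  have h2 : HasDerivAt ((0 : ℍ → ℂ) ∘ ofComplex) (0 : ℂ) (τ : ℂ) := by
    have : ((0 : ℍ → ℂ) ∘ ofComplex) = fun _ => (0 : ℂ) := rfl
    rw [this]
    exact hasDerivAt_const _ _
  exact h1.unique h2

theorem eq_zero_of_E_eq_zero {f : ℍ → ℂ} (hT : HasTower f) (n : ℕ) (h : E f n = 0) : f = 0 := by
  induction n with
  | zero => rw [← hT.E_zero]; exact h
  | succ n ih => exact ih (E_eq_zero_of_succ hT n h)

/-- the Eichler integral as a modular form of weight `k' = -w` -/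
noncomputable def eichlerForm (N : ℕ) [NeZero N] (w : ℕ) (k' : ℤ) (hk' : k' = -(w : ℤ))
    (f : ℍ → ℂ) (hT : HasTower f)
    (hinvΦ : ∀ γ ∈ Gamma0 N, (E f (w + 1)) ∣[-(w : ℤ)] (mapGL ℝ γ) = E f (w + 1))
    (hbdd : ∀ g : SL(2, ℤ), IsBoundedAtImInfty ((E f (w + 1)) ∣[-(w : ℤ)] (mapGL ℝ g))) :
    ModularForm (Gamma0 N : Subgroup (GL (Fin 2) ℝ)) k' where
  toFun := E f (w + 1)
  slash_action_eq' := by
    rintro γ ⟨g, hg, rfl⟩
    rw [hk']
    exact hinvΦ g hg
  holo' := hT.mdiff_E w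
  bdd_at_cusps' := by
    intro c hc
    have hc' : IsCusp c 𝒮ℒ := (Subgroup.IsArithmetic.isCusp_iff_isCusp_SL2Z _).mp hc
    rw [OnePoint.isBoundedAt_iff_forall_SL2Z hc']
    intro γ _
    rw [hk']
    exact hbdd γ

theorem eq_zero_of_E_modular (N : ℕ) [NeZero N] (w : ℕ) (f : ℍ → ℂ) (hT : HasTower f)
    (hinvΦ : ∀ γ ∈ Gamma0 N, (E f (w + 1)) ∣[-(w : ℤ)] (mapGL ℝ γ) = E f (w + 1))
    (hbdd : ∀ g : SL(2, ℤ), IsBoundedAtImInfty ((E f (w + 1)) ∣[-(w : ℤ)] (mapGL ℝ g))) :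
    f = 0 := by
  refine eq_zero_of_E_eq_zero hT (w + 1) ?_
  rcases Nat.eq_zero_or_pos w with hw | hw
  · subst hw
    obtain ⟨c, hc⟩ := ModularForm.eq_const_of_weight_zero
      (eichlerForm N 0 0 (by simp) f hT hinvΦ hbdd)
    have hc' : E f (0 + 1) = Function.const ℍ c := hc
    have hz : IsZeroAtImInfty (E f (0 + 1)) := hT.isTower.decay 0
    rw [hc'] at hz
    have : c = 0 := tendsto_nhds_unique tendsto_const_nhds hz
    rw [hc', this]
    rfl
  · have hneg : -(w : ℤ) < 0 := by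
      have : (0 : ℤ) < w := by exact_mod_cast hw
      omega
    have h0 := ModularForm.isZero_of_neg_weight hneg
      (eichlerForm N w (-(w : ℤ)) rfl f hT hinvΦ hbdd)
    funext τ
    have := congrArg (fun g : ModularForm _ (-(w : ℤ)) => g τ) h0
    exact this

end Fermat.Agent.S22
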