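import Fermat.Agent.S22.SepInv

/-!
# S22 helper: separation, part (S-bdd), helper17's version (file SepPer)

`E f (w + 1)` slashed by any element of `SL(2, ℤ)` is bounded at `i∞`.
-/

set_option autoImplicit false

open UpperHalfPlane hiding I
open Function Complex Filter Topology Matrix Matrix.SpecialLinearGroup
open scoped Real Manifold MatrixGroups ModularForm

namespace Fermat.Agent.S22

theorem sepB_conj_mem_Gamma0 (N : ℕ) (g : SL(2, ℤ)) :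
    g * ModularGroup.T ^ (N : ℤ) * g⁻¹ ∈ CongruenceSubgroup.Gamma0 N := by
  have h1 : ModularGroup.T ^ (N : ℤ) ∈ CongruenceSubgroup.Gamma N := by
    simpa using CongruenceSubgroup.ModularGroup_T_pow_mem_Gamma (N : ℤ) (N : ℤ) dvd_rfl
  have h2 : g * ModularGroup.T ^ (N : ℤ) * g⁻¹ ∈ CongruenceSubgroup.Gamma N :=
    (CongruenceSubgroup.Gamma_normal (N := N)).conj_mem _ h1 g
  rw [CongruenceSubgroup.Gamma_mem] at h2
  rw [CongruenceSubgroup.Gamma0_mem]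
  exact h2.2.2.1

/-- `Φ ∣[-w] g` is `N`-periodic when `Φ` is `Γ₀(N)`-invariant of weight `-w`. -/
theorem sepB_slash_periodic (N : ℕ) (w : ℕ) (Φ : ℍ → ℂ)
    (hinvΦ : ∀ γ ∈ CongruenceSubgroup.Gamma0 N, Φ ∣[-(w : ℤ)] (mapGL ℝ γ) = Φ)
    (g : SL(2, ℤ)) (τ : ℍ) :
    (Φ ∣[-(w : ℤ)] (mapGL ℝ g)) ((N : ℝ) +ᵥ τ) = (Φ ∣[-(w : ℤ)] (mapGL ℝ g)) τ := by
  set t : SL(2, ℤ) := ModularGroup.T ^ (N : ℤ) with ht
  have hmem := sepB_conj_mem_Gamma0 N g
  have h1 := hinvΦ _ hmem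
  have h2 : mapGL ℝ (g * t * g⁻¹) * mapGL ℝ g = mapGL ℝ g * mapGL ℝ t := by
    rw [← map_mul, ← map_mul]
    congr 1
    group
  have h3 : (Φ ∣[-(w : ℤ)] (mapGL ℝ g)) ∣[-(w : ℤ)] (mapGL ℝ t) = Φ ∣[-(w : ℤ)] (mapGL ℝ g) := by
    rw [← SlashAction.slash_mul, ← h2, SlashAction.slash_mul, h1]
  have h4 := congrFun h3 τ
  rw [sep_slash_neg w _ (sep_det_mapGL t)] at h4
  have h5 : (mapGL ℝ t) • τ = (N : ℝ) +ᵥ τ := by
    have := modular_T_zpow_smul τ (N : ℤ)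
    rw [Int.cast_natCast] at this
    rw [← this]
    rfl
  have h6 : denom (mapGL ℝ t) τ = 1 := by
    have e10 : (t 1 0 : ℤ) = 0 := by
      rw [ht, ModularGroup.coe_T_zpow]; rfl
    have e11 : (t 1 1 : ℤ) = 1 := by
      rw [ht, ModularGroup.coe_T_zpow]; rfl
    have d : denom (mapGL ℝ t) τ = ((t 1 0 : ℤ) : ℂ) * τ + ((t 1 1 : ℤ) : ℂ) := by
      simp [denom]
    rw [d, e10, e11]
    simp
  rw [h5, h6, one_pow, one_mul] at h4
  exact h4


theorem sepB_slash_one (k : ℤ) (f : ℍ → ℂ) : f ∣[k] (mapGL ℝ (1 : SL(2, ℤ))) = f := by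
  rw [map_one, SlashAction.slash_one]

/-- Boundedness at `i∞` of all `SL(2, ℤ)`-translates of `E f (w + 1)`. -/
theorem sepB_E_slash_bounded (N : ℕ) [NeZero N] (w : ℕ) (k : ℤ) (hk : k = w + 2) (f : ℍ → ℂ)
    (M : ℕ) (hM : 0 < M) (hcl : ∀ γ : SL(2, ℤ), IsCuspLike (M : ℝ) (f ∣[k] (mapGL ℝ γ)))
    (hinvΦ : ∀ γ ∈ CongruenceSubgroup.Gamma0 N,
      (E f (w + 1)) ∣[-(w : ℤ)] (mapGL ℝ γ) = E f (w + 1)) :
    ∀ g : SL(2, ℤ), IsBoundedAtImInfty ((E f (w + 1)) ∣[-(w : ℤ)] (mapGL ℝ g)) := by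
  intro g
  have hMr : (0 : ℝ) < (M : ℝ) := by exact_mod_cast hM
  have hNr : (0 : ℝ) < (N : ℝ) := by exact_mod_cast Nat.pos_of_ne_zero (NeZero.ne N)
  have hf : IsCuspLike (M : ℝ) f := by simpa [sepB_slash_one] using hcl 1
  have hT : HasTower f := hf.hasTower hMr
  have hTg : HasTower (f ∣[k] (mapGL ℝ g)) := (hcl g).hasTower hMr
  have hg := sep_det_pos g
  set G : GL (Fin 2) ℝ := mapGL ℝ g with hG
  set fg : ℍ → ℂ := f ∣[k] G with hfg
  set Ψ : ℍ → ℂ := (E f (w + 1)) ∣[-(w : ℤ)] G with hΨ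
  have hw : (w.factorial : ℂ) ≠ 0 := by exact_mod_cast w.factorial_ne_zero
  obtain ⟨P, hP⟩ := sepD_poly w f fg G UpperHalfPlane.I
  -- the key identity
  have key : ∀ τ : ℍ, (w.factorial : ℂ) * Ψ τ = (w.factorial : ℂ) * E fg (w + 1) τ + P.eval (τ : ℂ) := by
    intro τ
    have h1 := J_comp_sub_const hk hT hg hTg (τ : ℂ) 1 τ UpperHalfPlane.I
    rw [sep_J_act_diag w f hg, J_diag] at h1
    rw [hP, sepD, hΨ, sep_slash_neg w _ (sep_det_mapGL g)]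
    rw [← h1]
    ring
  -- periodicity of `P` with period `M * N`
  have hΨper : ∀ τ : ℍ, Ψ ((N : ℝ) +ᵥ τ) = Ψ τ := fun τ =>
    sepB_slash_periodic N w _ hinvΦ g τ
  have hper1 : ∀ (n : ℕ) (τ : ℍ), Ψ (((n * N : ℕ) : ℝ) +ᵥ τ) = Ψ τ := by
    intro n
    induction n with
    | zero => intro τ; simp
    | succ n ih =>
      intro τ
      have e : (((n + 1) * N : ℕ) : ℝ) +ᵥ τ = (N : ℝ) +ᵥ ((((n * N : ℕ) : ℝ)) +ᵥ τ) := by
        rw [vadd_vadd]; congr 1; push_cast; ring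
      rw [e, hΨper, ih]
  have hEper : ∀ (n : ℕ) (τ : ℍ), E fg (w + 1) (((n * M : ℕ) : ℝ) +ᵥ τ) = E fg (w + 1) τ := by
    have hper := ((hcl g).E hMr (w + 1)).per
    have step : ∀ τ : ℍ, E fg (w + 1) ((M : ℝ) +ᵥ τ) = E fg (w + 1) τ := by
      intro τ
      have := hper (τ : ℂ)
      simp only [Function.comp_apply, ofComplex_apply] at this
      rw [← this]
      congr 1
      apply UpperHalfPlane.ext
      rw [coe_vadd, add_comm]
      have him : 0 < ((τ : ℂ) + (M : ℝ)).im := by simpa using τ.im_pos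
      rw [ofComplex_apply_of_im_pos him]
    intro n
    induction n with
    | zero => intro τ; simp
    | succ n ih =>
      intro τ
      have e : (((n + 1) * M : ℕ) : ℝ) +ᵥ τ = (M : ℝ) +ᵥ ((((n * M : ℕ) : ℝ)) +ᵥ τ) := by
        rw [vadd_vadd]; congr 1; push_cast; ring
      rw [e, step, ih]
  have hPper : ∀ τ : ℍ, P.eval ((τ : ℂ) + ((M * N : ℕ) : ℝ)) = P.eval (τ : ℂ) := by
    intro τ
    have k1 := key τ
    have k2 := key ((((M * N : ℕ) : ℝ)) +ᵥ τ)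
    rw [hper1 M τ] at k2
    have e2 : (((M * N : ℕ) : ℝ)) +ᵥ τ = (((N * M : ℕ) : ℝ)) +ᵥ τ := by rw [Nat.mul_comm]
    rw [e2, hEper N τ] at k2
    have e3 : ((((N * M : ℕ) : ℝ) +ᵥ τ : ℍ) : ℂ) = (τ : ℂ) + ((M * N : ℕ) : ℝ) := by
      rw [coe_vadd, add_comm, Nat.mul_comm]
    rw [e3] at k2
    have := k1.symm.trans k2
    exact (add_left_cancel this).symm
  have hconst := sep_poly_const_of_periodic P ((M * N : ℕ) : ℝ)
    (by exact_mod_cast Nat.mul_pos hM (Nat.pos_of_ne_zero (NeZero.ne N))) hPper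
  -- conclusion
  have hΨ_eq : Ψ = E fg (w + 1) + fun _ => (w.factorial : ℂ)⁻¹ * P.eval (Complex.I) := by
    funext τ
    have := key τ
    rw [hconst (τ : ℂ)] at this
    simp only [Pi.add_apply]
    field_simp
    rw [mul_comm] at this
    rw [this]
    ring
  rw [hΨ_eq]
  exact (((hcl g).E hMr (w + 1)).zero.isBoundedAtImInfty).add (Filter.const_boundedAtFilter _ _)

end Fermat.Agent.S22
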