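import Fermat.Agent.S22.SepInv
import Fermat.Agent.S22.SepBdd
import Fermat.Agent.S22.SepFin

/-!
# S22 helper: vanishing of all periods forces `f = 0`
-/

set_option autoImplicit false

open UpperHalfPlane hiding I
open CongruenceSubgroup Matrix.SpecialLinearGroup
open scoped MatrixGroups ModularForm

namespace Fermat.Agent.S22

theorem eq_zero_of_periods_eq_zero (N : ℕ) [NeZero N] (w : ℕ) (k : ℤ) (hk : k = w + 2)
    (f : ℍ → ℂ)
    (hinv : ∀ γ ∈ CongruenceSubgroup.Gamma0 N, f ∣[k] (Matrix.SpecialLinearGroup.mapGL ℝ γ) = f)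
    (M : ℕ) (hM : 0 < M)
    (hcl : ∀ γ : SL(2, ℤ), IsCuspLike (M : ℝ) (f ∣[k] (Matrix.SpecialLinearGroup.mapGL ℝ γ)))
    (hper : ∀ γ ∈ CongruenceSubgroup.Gamma0 N, ∀ x y : ℤ,
      J w f (actX (Matrix.SpecialLinearGroup.mapGL ℝ γ) x y)
          (actY (Matrix.SpecialLinearGroup.mapGL ℝ γ) x y)
          ((Matrix.SpecialLinearGroup.mapGL ℝ γ) • UpperHalfPlane.I) = J w f x y UpperHalfPlane.I) :
    f = 0 := by
  have hf1 : IsCuspLike (M : ℝ) f := by
    have := hcl 1
    simpa using this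
  have hT : HasTower f := hf1.hasTower (by exact_mod_cast hM)
  have hinvΦ := E_slash_invariant N w k hk f hT hinv hper
  have hbdd := E_slash_bounded N w k hk f M hM hcl hinvΦ
  exact eq_zero_of_E_modular N w f hT hinvΦ hbdd

end Fermat.Agent.S22
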