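import Fermat.Agent.S22.HeckeStable

/-!
# S22 helper: finite generation of `Γ₀(N)` and the low weight cases
-/

set_option autoImplicit false

open UpperHalfPlane hiding I
open CongruenceSubgroup Matrix.SpecialLinearGroup
open scoped MatrixGroups ModularForm

namespace Fermat.Agent.S22

theorem sl2z_groupFG : Group.FG SL(2, ℤ) := by
  rw [Group.fg_def]
  refine ⟨{ModularGroup.S, ModularGroup.T}, ?_⟩
  have := SpecialLinearGroup.SL2Z_generators
  simpa using this

theorem gamma0_groupFG (N : ℕ) [NeZero N] : Group.FG (CongruenceSubgroup.Gamma0 N) := by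
  have := sl2z_groupFG
  exact Subgroup.fg_of_index_ne_zero _

theorem cuspForm_coe_eq_zero_of_le_one (N : ℕ) [NeZero N] (k : ℤ) (hk : k ≤ 1)
    (f : CuspForm (Gamma0 N) k) : (⇑f : ℍ → ℂ) = 0 := by
  rcases lt_trichotomy k 0 with h | h | h
  · have h0 := ModularForm.isZero_of_neg_weight h (ModularFormClass.modularForm f)
    funext τ
    have := congrArg (fun g : ModularForm _ k => g τ) h0
    simpa using this
  · subst h
    obtain ⟨c, hc⟩ := ModularForm.eq_const_of_weight_zero (ModularFormClass.modularForm f)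
    have hc' : (⇑f : ℍ → ℂ) = Function.const ℍ c := by
      simpa using hc
    have hz : IsZeroAtImInfty (⇑f : ℍ → ℂ) := (cuspForm_isCuspLike f).zero
    rw [hc'] at hz
    have : c = 0 := tendsto_nhds_unique tendsto_const_nhds hz
    rw [hc', this]
    rfl
  · have hk1 : k = 1 := by omega
    subst hk1
    have hmem : (-1 : GL (Fin 2) ℝ) ∈ (Gamma0 N : Subgroup (GL (Fin 2) ℝ)) := by
      refine ⟨-1, ?_, ?_⟩
      · rw [SetLike.mem_coe, Gamma0_mem]
        simp
      · ext i j
        simp
    have h0 := ModularForm.eq_zero_of_neg_one_mem hmem odd_one (ModularFormClass.modularForm f)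
    funext τ
    have := congrArg (fun g : ModularForm _ 1 => g τ) h0
    simpa using this

theorem cuspForm_subsingleton_of_le_one (N : ℕ) [NeZero N] (k : ℤ) (hk : k ≤ 1) :
    Subsingleton (CuspForm (Gamma0 N) k) :=
  ⟨fun f g => DFunLike.coe_injective
    ((cuspForm_coe_eq_zero_of_le_one N k hk f).trans (cuspForm_coe_eq_zero_of_le_one N k hk g).symm)⟩

theorem moduleFinite_heckeAlgebra_of_le_one (N : ℕ) [NeZero N] (k : ℤ) (hk : k ≤ 1) (S : Set ℕ) :
    Module.Finite ℤ (CuspForm.heckeAlgebra N k S) := by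
  have h1 := cuspForm_subsingleton_of_le_one N k hk
  have h2 : Subsingleton (Module.End ℂ (CuspForm (Gamma0 N) k)) :=
    ⟨fun a b => LinearMap.ext fun v => Subsingleton.elim _ _⟩
  have h3 : Subsingleton (CuspForm.heckeAlgebra N k S) :=
    ⟨fun a b => Subtype.ext (Subsingleton.elim _ _)⟩
  exact Module.Finite.of_finite

end Fermat.Agent.S22
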