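import Fermat.Agent.S22.Prim

/-!
# S22 helper: towers of iterated primitives
-/

set_option autoImplicit false

open UpperHalfPlane hiding I
open Function Complex Filter Topology
open scoped Real Manifold

namespace Fermat.Agent.S22

/-- A tower of iterated primitives of `f`, each vanishing at `i∞`. -/
structure IsTower (f : ℍ → ℂ) (E : ℕ → ℍ → ℂ) : Prop where
  zero : E 0 = f
  deriv : ∀ n, HasDerivH (E (n + 1)) (E n)
  decay : ∀ n, IsZeroAtImInfty (E (n + 1))

theorem eq_zero_of_hasDerivH_zero {D : ℍ → ℂ} (hD : HasDerivH D 0) (h0 : IsZeroAtImInfty D) :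
    D = 0 := by
  have hconst : ∀ τ τ' : ℍ, D τ = D τ' := by
    intro τ τ'
    have hdiff : DifferentiableOn ℂ (D ∘ ofComplex) upperHalfPlaneSet := by
      intro z hz
      exact (hD ⟨z, hz⟩).differentiableAt.differentiableWithinAt
    have hderiv : Set.EqOn (deriv (D ∘ ofComplex)) 0 upperHalfPlaneSet := by
      intro z hz
      exact (hD ⟨z, hz⟩).deriv
    have hconv : IsPreconnected upperHalfPlaneSet := by
      have : Convex ℝ upperHalfPlaneSet := by
        have := convex_halfSpace_im_gt (0 : ℝ)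
        exact this
      exact this.isPreconnected
    have := isOpen_upperHalfPlaneSet.is_const_of_deriv_eq_zero hconv hdiff hderiv
      (x := (τ : ℂ)) (y := (τ' : ℂ)) τ.im_pos τ'.im_pos
    simpa [Function.comp, ofComplex_apply] using this
  funext τ
  have h1 : Tendsto D atImInfty (𝓝 (D τ)) := by
    have : D = fun _ => D τ := funext fun τ' => hconst τ' τ
    rw [this]
    exact tendsto_const_nhds
  exact tendsto_nhds_unique h1 h0

theorem HasDerivH.sub {F G f g : ℍ → ℂ} (hF : HasDerivH F f) (hG : HasDerivH G g) :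
    HasDerivH (F - G) (f - g) := fun τ => (hF τ).sub (hG τ)

theorem HasDerivH.add {F G f g : ℍ → ℂ} (hF : HasDerivH F f) (hG : HasDerivH G g) :
    HasDerivH (F + G) (f + g) := fun τ => (hF τ).add (hG τ)

theorem HasDerivH.const_smul {F f : ℍ → ℂ} (hF : HasDerivH F f) (c : ℂ) :
    HasDerivH (c • F) (c • f) := fun τ => (hF τ).const_smul c

theorem IsTower.unique {f : ℍ → ℂ} {E E' : ℕ → ℍ → ℂ} (h : IsTower f E) (h' : IsTower f E') :
    E = E' := by
  funext n
  induction n with
  | zero => rw [h.zero, h'.zero]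
  | succ n ih =>
    have hD : HasDerivH (E (n + 1) - E' (n + 1)) 0 := by
      have := (h.deriv n).sub (h'.deriv n)
      rwa [ih, sub_self] at this
    have h0 : IsZeroAtImInfty (E (n + 1) - E' (n + 1)) := by
      have := Tendsto.sub (h.decay n) (h'.decay n)
      rw [sub_zero] at this
      exact this
    have := eq_zero_of_hasDerivH_zero hD h0
    exact sub_eq_zero.mp this

/-- `f` admits a tower. -/
def HasTower (f : ℍ → ℂ) : Prop := ∃ E, IsTower f E

open Classical in
/-- The canonical tower of iterated primitives (zero if none exists). -/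
noncomputable def E (f : ℍ → ℂ) : ℕ → ℍ → ℂ :=
  if h : HasTower f then h.choose else 0

theorem HasTower.isTower {f : ℍ → ℂ} (h : HasTower f) : IsTower f (E f) := by
  unfold E
  rw [dif_pos h]
  exact h.choose_spec

theorem IsTower.E_eq {f : ℍ → ℂ} {E' : ℕ → ℍ → ℂ} (h : IsTower f E') : E f = E' :=
  (HasTower.isTower ⟨E', h⟩).unique h

theorem IsTower.add {f g : ℍ → ℂ} {E₁ E₂ : ℕ → ℍ → ℂ} (h₁ : IsTower f E₁) (h₂ : IsTower g E₂) :
    IsTower (f + g) (E₁ + E₂) where
  zero := by rw [Pi.add_apply, h₁.zero, h₂.zero]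
  deriv n := (h₁.deriv n).add (h₂.deriv n)
  decay n := ZeroAtFilter.add (h₁.decay n) (h₂.decay n)

theorem IsTower.smul {f : ℍ → ℂ} {E₁ : ℕ → ℍ → ℂ} (h₁ : IsTower f E₁) (c : ℂ) :
    IsTower (c • f) (c • E₁) where
  zero := by rw [Pi.smul_apply, h₁.zero]
  deriv n := (h₁.deriv n).const_smul c
  decay n := by
    have := Tendsto.const_mul c (h₁.decay n)
    rw [mul_zero] at this
    exact this

theorem isTower_zero : IsTower 0 0 where
  zero := rfl
  deriv n := fun τ => hasDerivAt_const (τ : ℂ) (0 : ℂ)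
  decay n := tendsto_const_nhds

theorem HasTower.add {f g : ℍ → ℂ} (h₁ : HasTower f) (h₂ : HasTower g) : HasTower (f + g) :=
  ⟨_, h₁.isTower.add h₂.isTower⟩

theorem HasTower.smul {f : ℍ → ℂ} (h₁ : HasTower f) (c : ℂ) : HasTower (c • f) :=
  ⟨_, h₁.isTower.smul c⟩

theorem hasTower_zero : HasTower 0 := ⟨_, isTower_zero⟩

theorem E_add {f g : ℍ → ℂ} (h₁ : HasTower f) (h₂ : HasTower g) : E (f + g) = E f + E g :=
  (h₁.isTower.add h₂.isTower).E_eq

theorem E_smul {f : ℍ → ℂ} (h₁ : HasTower f) (c : ℂ) : E (c • f) = c • E f :=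
  (h₁.isTower.smul c).E_eq

theorem E_zero : E 0 = 0 := isTower_zero.E_eq

theorem hasTower_sum {ι : Type*} (s : Finset ι) (f : ι → ℍ → ℂ) (h : ∀ i ∈ s, HasTower (f i)) :
    HasTower (∑ i ∈ s, f i) := by
  classical
  induction s using Finset.induction_on with
  | empty => simpa using hasTower_zero
  | insert a s ha ih =>
    rw [Finset.sum_insert ha]
    exact (h a (Finset.mem_insert_self a s)).add (ih fun i hi => h i (Finset.mem_insert_of_mem hi))

theorem E_sum {ι : Type*} (s : Finset ι) (f : ι → ℍ → ℂ) (h : ∀ i ∈ s, HasTower (f i)) :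
    E (∑ i ∈ s, f i) = ∑ i ∈ s, E (f i) := by
  classical
  induction s using Finset.induction_on with
  | empty => simpa using E_zero
  | insert a s ha ih =>
    rw [Finset.sum_insert ha, Finset.sum_insert ha,
      E_add (h a (Finset.mem_insert_self a s))
        (hasTower_sum s f fun i hi => h i (Finset.mem_insert_of_mem hi)),
      ih fun i hi => h i (Finset.mem_insert_of_mem hi)]

/-- iterated primitive operator for cusp-like functions of period `h` -/
noncomputable def primOp (h : ℝ) (f : ℍ → ℂ) : ℍ → ℂ :=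
  open Classical in
  if hf : 0 < h ∧ IsCuspLike h f then (exists_prim hf.1 hf.2).choose else 0

theorem primOp_spec {h : ℝ} (hh : 0 < h) {f : ℍ → ℂ} (hf : IsCuspLike h f) :
    IsCuspLike h (primOp h f) ∧ HasDerivH (primOp h f) f := by
  unfold primOp
  rw [dif_pos ⟨hh, hf⟩]
  exact (exists_prim hh hf).choose_spec

theorem isCuspLike_iterate {h : ℝ} (hh : 0 < h) {f : ℍ → ℂ} (hf : IsCuspLike h f) (n : ℕ) :
    IsCuspLike h ((primOp h)^[n] f) := by
  induction n with
  | zero => simpa using hf
  | succ n ih =>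
    rw [Function.iterate_succ_apply']
    exact (primOp_spec hh ih).1

theorem isTower_iterate {h : ℝ} (hh : 0 < h) {f : ℍ → ℂ} (hf : IsCuspLike h f) :
    IsTower f (fun n => (primOp h)^[n] f) where
  zero := rfl
  deriv n := by
    show HasDerivH ((primOp h)^[n + 1] f) _
    rw [Function.iterate_succ_apply']
    exact (primOp_spec hh (isCuspLike_iterate hh hf n)).2
  decay n := (isCuspLike_iterate hh hf (n + 1)).zero

theorem IsCuspLike.hasTower {h : ℝ} (hh : 0 < h) {f : ℍ → ℂ} (hf : IsCuspLike h f) :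
    HasTower f := ⟨_, isTower_iterate hh hf⟩

theorem IsCuspLike.E {h : ℝ} (hh : 0 < h) {f : ℍ → ℂ} (hf : IsCuspLike h f) (n : ℕ) :
    IsCuspLike h (E f n) := by
  rw [(isTower_iterate hh hf).E_eq]
  exact isCuspLike_iterate hh hf n

theorem HasTower.E_zero {f : ℍ → ℂ} (h : HasTower f) : E f 0 = f := h.isTower.zero

theorem HasTower.mdiff_E {f : ℍ → ℂ} (h : HasTower f) (n : ℕ) : MDiff (E f (n + 1)) :=
  (h.isTower.deriv n).mdiff

end Fermat.Agent.S22
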